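import Fermat.Agent.GAL.CTV.Defs
import Fermat.Agent.GAL.CT.Theta
import Fermat.Agent.GAL.KLB.Base
import Fermat.Agent.S28.Defs

/-!
# GAL / CTV : wiring of the constant term lemma.  Definitions (no sorry).

* `Fbar hρ`  : the residue field `ρ(O_v)` as an intermediate field of `k((q))/k`
* `IsTData`  : the data attached to a base parameter `t` (`= j̄`, `t̄₂`, `t̄₃`) and a cusp form `f̄`
-/

set_option autoImplicit false

open Polynomial

noncomputable section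

namespace Fermat.Agent.GAL.CTV

open Fermat.Agent.GAL.KL Fermat.Agent.GAL.KLC

variable {K F k Γ₀ : Type*} [Field K] [Field F] [Algebra K F] [Field k]
  [LinearOrderedCommGroupWithZero Γ₀] {v : Valuation F Γ₀} {ρ : v.integer →+* LaurentSeries k}

/-- the residue field of `v`, inside `k((q))`. -/
def Fbar (hρ : IsRed K v ρ) : IntermediateField k (LaurentSeries k) where
  carrier := Set.range ρ
  mul_mem' := by rintro _ _ ⟨a, rfl⟩ ⟨b, rfl⟩; exact ⟨a * b, map_mul _ _ _⟩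
  add_mem' := by rintro _ _ ⟨a, rfl⟩ ⟨b, rfl⟩; exact ⟨a + b, map_add _ _ _⟩
  algebraMap_mem' c := by
    obtain ⟨a, ha, h⟩ := hρ.const_surj c
    exact ⟨_, by rw [h, LaurentSeries.algebraMap_apply]⟩
  inv_mem' := by
    rintro _ ⟨a, rfl⟩
    by_cases h0 : ρ a = 0
    · exact ⟨0, by rw [h0, inv_zero, map_zero]⟩
    · have h1 : v (a : F) = 1 := by
        refine le_antisymm a.2 (not_lt.mp fun h => h0 ((hρ.ker a).mpr h))
      have ha0 : (a : F) ≠ 0 := fun h => by rw [h, map_zero] at h1; exact zero_ne_one h1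
      have h2 : (a : F)⁻¹ ∈ v.integer := by
        rw [Valuation.mem_integer_iff, map_inv₀, h1, inv_one]
      refine ⟨⟨(a : F)⁻¹, h2⟩, ?_⟩
      have h3 : ρ ⟨(a : F)⁻¹, h2⟩ * ρ a = 1 := by
        rw [← map_mul, ← map_one ρ]
        congr 1
        exact Subtype.ext (inv_mul_cancel₀ ha0)
      exact eq_inv_of_mul_eq_one_left h3

theorem mem_Fbar (hρ : IsRed K v ρ) {φ : LaurentSeries k} : φ ∈ Fbar hρ ↔ ∃ z, ρ z = φ := Iff.rfl

theorem rho_mem_Fbar (hρ : IsRed K v ρ) (z : v.integer) : ρ z ∈ Fbar hρ := ⟨z, rfl⟩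

/-- **`t`-data** for a series `f` (the reduction of a cusp form) in a subfield `Fb` of `k((q))`:
`t` has a simple pole at `q = 0`, `y = f/θt ∈ Fb`, `(y W(t))^n₁ = W(t) η` with `η` integral over `k[t]`,
and `y^n₂ t^(n₂+1)` is regular at all places over `t = ∞`.  Integrality is expressed with the valuation
subrings of the big field `k((q))` containing `k`. -/
structure IsTData (Fb : IntermediateField k (LaurentSeries k)) (f t : LaurentSeries k) : Prop where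
  t_mem : t ∈ Fb
  order_t : t.order = -1
  res : ∀ m : ℕ, (t ^ m * CT.theta t).coeff 0 = 0
  ex : ∃ (W : k[X]) (y η : LaurentSeries k) (n₁ n₂ : ℕ), Squarefree W ∧ y ∈ Fb ∧
    y * CT.theta t = f ∧ 0 < n₁ ∧ (y * aeval t W) ^ n₁ = aeval t W * η ∧
    (∀ O : ValuationSubring (LaurentSeries k), OverK k O → t ∈ O → η ∈ O) ∧ 0 < n₂ ∧
    (∀ O : ValuationSubring (LaurentSeries k), OverK k O → t ∉ O → y ^ n₂ * t ^ (n₂ + 1) ∈ O)

/-! ## formal modular forms over `ℤ` -/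

/-- `E₆ = 1 - 504 ∑ σ₅(n) qⁿ`. -/
def eisenstein6 : PowerSeries ℤ :=
  PowerSeries.mk fun n => if n = 0 then 1 else -504 * ∑ d ∈ n.divisors, (d : ℤ) ^ 5

/-- coefficientwise `ℤ((q)) → R((q))`. -/
abbrev cZ (R : Type*) [CommRing R] : LaurentSeries ℤ →+* LaurentSeries R :=
  ModularCurve.coeffMap (Int.castRingHom R)

/-- `j`, `Δ`, `1/Δ`, `E₄`, `E₆` in `ℤ((q))`. -/
abbrev jZ : LaurentSeries ℤ := ModularCurve.jqModC ℤ
abbrev DZ : LaurentSeries ℤ := S28.DqC ℤ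
abbrev DZi : LaurentSeries ℤ := S28.DqInvC ℤ
def E4Z : LaurentSeries ℤ := HahnSeries.ofPowerSeries ℤ ℤ ModularCurve.eisenstein4
def E6Z : LaurentSeries ℤ := HahnSeries.ofPowerSeries ℤ ℤ eisenstein6

/-- a power series over `ℤ` as a Laurent series over `ℤ`. -/
abbrev pZ (f : PowerSeries ℤ) : LaurentSeries ℤ := HahnSeries.ofPowerSeries ℤ ℤ f

/-- `g = f⁶/Δ`. -/
def gZ (f : PowerSeries ℤ) : LaurentSeries ℤ := pZ f ^ 6 * DZi

/-- `z₀ = f E₄ E₆/Δ`. -/
def z0Z (f : PowerSeries ℤ) : LaurentSeries ℤ := pZ f * E4Z * E6Z * DZi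

/-- **Hauptmodul facts** at level `b` (`b = 2`: `r = 2`, `c₀ = 64`, `Nt = (X+256)³`;
`b = 3`: `r = 3`, `c₀ = 27`, `Nt = (X+27)(X+243)³`): there is `t = q⁻¹(1 + …) ∈ ℤ((q))`, a function on
`X₀(b)`, with `j t^r = Nt(t)` and `(θt)⁶ = t^(6-r) (t+c₀)^(r+1) Δ`. -/
def HauptFacts (b r : ℕ) (c₀ : ℤ) (Nt : ℤ[X]) : Prop :=
  ∃ tZ : LaurentSeries ℤ,
    (∃ u : PowerSeries ℤ, PowerSeries.constantCoeff u = 1 ∧
      tZ = HahnSeries.single (-1 : ℤ) 1 * HahnSeries.ofPowerSeries ℤ ℤ u) ∧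
    jZ * tZ ^ r = aeval tZ Nt ∧
    CT.theta tZ ^ 6 = tZ ^ (6 - r) * (tZ + HahnSeries.C c₀) ^ (r + 1) * DZ ∧
    ∀ M : ℕ, b ∣ M → cZ Qb tZ ∈ FL Qb M

end Fermat.Agent.GAL.CTV
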