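import Fermat.Agent.GAL.CTV.Defs
import Fermat.Agent.GAL.KL.BasicInt

/-!
# GAL / CT-A4 : integrality over `k[t]` via valuation subrings.
-/

set_option autoImplicit false

namespace Fermat.Agent.GAL.CTV

open Polynomial Fermat.Agent.GAL.KL Fermat.Agent.S28

variable {k F : Type*} [Field k] [Field F] [Algebra k F]

theorem a4_aeval_mem (t : F) (O : ValuationSubring F) (hO : OverK k O) (ht : t ∈ O) (p : k[X]) :
    aeval t p ∈ O := by
  induction p using Polynomial.induction_on' with
  | add p q hp hq => rw [map_add]; exact O.add_mem _ _ hp hq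
  | monomial n a =>
    rw [aeval_monomial]
    exact O.mul_mem _ _ (hO a) (O.pow_mem ht n)

theorem isInt_iff_forall_valuationSubring (t z : F) :
    IsInt k t z ↔ ∀ O : ValuationSubring F, OverK k O → t ∈ O → z ∈ O := by
  constructor
  · rintro ⟨p, hp, hz⟩ O hO ht
    -- `z` is integral over `O`
    have hint : IsIntegral O z := by
      refine ⟨p.map ((evT k t).codRestrict O.toSubring (fun q => a4_aeval_mem t O hO ht q)),
        hp.map _, ?_⟩
      rw [eval₂_map]
      exact hz
    obtain ⟨y, hy⟩ := (IsIntegrallyClosed.isIntegral_iff (R := O) (K := F)).1 hint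
    rw [← hy]
    exact y.2
  · intro h
    have hmem : z ∈ (⨅ V : {V : ValuationSubring F // Set.range (evT k t) ⊆ V.toSubring},
        V.1.toSubring) := by
      rw [Subring.mem_iInf]
      rintro ⟨V, hV⟩
      refine h V (fun c => ?_) ?_
      · refine hV ⟨C c, ?_⟩
        simp
      · refine hV ⟨X, ?_⟩
        simp
    rw [iInf_valuationSubring_superset] at hmem
    have hint : IsIntegral (Subring.closure (Set.range (evT k t))) z := hmem
    obtain ⟨p, hp, hz⟩ := hint
    -- every element of the closure is in the range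
    have hcl : Subring.closure (Set.range (evT k t)) = (evT k t).range := by
      rw [← RingHom.coe_range, Subring.closure_eq]
    set φ : k[X] →+* Subring.closure (Set.range (evT k t)) :=
      (evT k t).codRestrict _ (fun q => Subring.subset_closure ⟨q, rfl⟩) with hφ
    have hsurj : Function.Surjective φ := by
      rintro ⟨a, ha⟩
      rw [hcl] at ha
      obtain ⟨q, hq⟩ := ha
      exact ⟨q, Subtype.ext hq⟩
    have hlift : p ∈ Polynomial.lifts φ := by
      rw [Polynomial.mem_lifts]
      exact Polynomial.map_surjective φ hsurj p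
    obtain ⟨q, hq, -, hqm⟩ := Polynomial.lifts_and_degree_eq_and_monic hlift hp
    refine ⟨q, hqm, ?_⟩
    rw [← hq, eval₂_map] at hz
    exact hz

theorem a4_order_inv {s : LaurentSeries k} (hs : s ≠ 0) : (s⁻¹).order = -s.order := by
  have h := HahnSeries.order_mul hs (inv_ne_zero hs)
  rw [mul_inv_cancel₀ hs, HahnSeries.order_one] at h
  omega

theorem mem_of_le_of_mem (ι : F →ₐ[k] LaurentSeries k) (t : F) (ht : (ι t).order = -1)
    (O : ValuationSubring F) (h : ∀ z : F, 0 ≤ (ι z).order → z ∈ O) (htO : t ∈ O) (x : F) :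
    x ∈ O := by
  have ht0 : ι t ≠ 0 := by
    intro h0
    rw [h0, HahnSeries.order_zero] at ht
    omega
  have ht0' : t ≠ 0 := by
    intro h0
    exact ht0 (by rw [h0, map_zero])
  by_cases hx : x = 0
  · rw [hx]; exact O.zero_mem
  have hx0 : ι x ≠ 0 := by
    intro h0
    exact hx (ι.toRingHom.injective (by simpa using h0))
  -- `N` with `0 ≤ ord x + N`
  set N : ℕ := (-(ι x).order).toNat with hN
  have hpow : ((ι t)⁻¹ ^ N).order = N := by
    rw [HahnSeries.order_pow, a4_order_inv ht0, ht]
    simp
  have hord : 0 ≤ (ι (x * t⁻¹ ^ N)).order := by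
    rw [map_mul, map_pow, map_inv₀, HahnSeries.order_mul hx0 (pow_ne_zero _ (inv_ne_zero ht0)),
      hpow]
    omega
  have h1 := h _ hord
  have h2 : x = (x * t⁻¹ ^ N) * t ^ N := by
    rw [mul_assoc, ← mul_pow, inv_mul_cancel₀ ht0', one_pow, mul_one]
  rw [h2]
  exact O.mul_mem _ _ h1 (O.pow_mem htO N)

end Fermat.Agent.GAL.CTV
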