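import Fermat.Agent.GAL.CTV.WDefs
import Fermat.Agent.GAL.KLC.GaussON

/-!
# GAL / CTV / W4 : the residue field `F̄` is spanned over `k(x̄)` by `(x̄'/x̄)ⁱ`, `i < m`
-/

set_option autoImplicit false

open Polynomial ModularCurve AlgebraicCurve

noncomputable section

namespace Fermat.Agent.GAL.CTV

open Fermat.Agent.GAL.KL Fermat.Agent.GAL.KLC Fermat.Agent.GR

variable {k : Type*} [Field k]

variable {K F Γ₀ : Type*} [Field K] [Field F] [Algebra K F]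
  [LinearOrderedCommGroupWithZero Γ₀] {v : Valuation F Γ₀} {ρ : v.integer →+* LaurentSeries k}

/-- the statement in `k((q))`, with `x̄'ⁱ` as generators. -/
theorem w4_span_series (hρ : IsRed K v ρ) {x x' : F} (hx : x ∈ v.integer) (hx' : x' ∈ v.integer)
    {m : ℕ} (hm : 0 < m) (hxo : (ρ ⟨x, hx⟩).order = -(m : ℤ))
    (hxo' : (ρ ⟨x', hx'⟩).order = -(m : ℤ) + 1)
    (hSp : Spans K x (fun i : Fin m => x' ^ (i : ℕ))) (z0 : v.integer) :
    ∃ (d : k[X]) (p : Fin m → k[X]), d ≠ 0 ∧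
      aeval (ρ ⟨x, hx⟩) d * ρ z0 = ∑ i, aeval (ρ ⟨x, hx⟩) (p i) * ρ ⟨x', hx'⟩ ^ (i : ℕ) := by
  by_cases hz : ρ z0 = 0
  · exact ⟨1, fun _ => 0, one_ne_zero, by simp [hz]⟩
  have hxo0 : (ρ ⟨x, hx⟩).order < 0 := by rw [hxo]; omega
  have hG : Gauss K v x := gauss_of_isRed hρ hx hxo0
  have hON : ON K v x (fun i : Fin m => x' ^ (i : ℕ)) := on_of_isRed hρ hx hx' hm hxo hxo'
  have hvz : v (z0 : F) = 1 :=
    le_antisymm z0.2 (not_lt.mp fun h => hz ((hρ.ker z0).mpr h))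
  obtain ⟨q, P, hq0, hqP⟩ := hSp (z0 : F)
  obtain ⟨a, ha⟩ := hG.exists_const q
  have hq1 : aeval x q ≠ 0 := fun h => hq0 (hG.inj q h)
  have hva : v (algebraMap K F a) ≠ 0 := by
    rw [← ha, Ne, map_eq_zero]
    exact hq1
  -- scaling
  set q' : K[X] := C a⁻¹ * q with hq'
  set P' : Fin m → K[X] := fun i => C a⁻¹ * P i with hP'
  have hq'v : v (aeval x q') = 1 := by
    rw [hq', map_mul, aeval_C, map_mul, map_inv₀, map_inv₀, ha, inv_mul_cancel₀ hva]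
  have hcomb : aeval x q' * (z0 : F) = comb K x P' (fun i : Fin m => x' ^ (i : ℕ)) := by
    rw [hq', map_mul, mul_assoc, hqP, comb, comb, Finset.mul_sum]
    refine Finset.sum_congr rfl fun i _ => ?_
    rw [hP']
    simp only
    rw [map_mul, mul_assoc]
  have hP'v : ∀ i, v (aeval x (P' i)) ≤ 1 := by
    apply (hON P' 1).mp
    rw [← hcomb, map_mul, hq'v, hvz, one_mul]
  have hq'c : ∀ j, v (algebraMap K F (q'.coeff j)) ≤ 1 := (hG q' 1).mp hq'v.le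
  have hP'c : ∀ i j, v (algebraMap K F ((P' i).coeff j)) ≤ 1 := fun i => (hG (P' i) 1).mp (hP'v i)
  obtain ⟨qb, hqmem, hqred, -, -⟩ := exists_red_poly hρ hx q' hq'c
  choose pb hmem hred _ _ using fun i => exists_red_poly hρ hx (P' i) (hP'c i)
  refine ⟨qb, pb, ?_, ?_⟩
  · rintro rfl
    rw [map_zero, hρ.ker] at hqred
    change v (aeval x q') < 1 at hqred
    rw [hq'v] at hqred
    exact lt_irrefl _ hqred
  · have hint : (⟨aeval x q', hqmem⟩ : v.integer) * z0 =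
        ∑ i : Fin m, ⟨aeval x (P' i), hmem i⟩ * ⟨x', hx'⟩ ^ (i : ℕ) := by
      apply Subtype.ext
      push_cast
      exact hcomb
    have := congrArg ρ hint
    rw [map_mul, map_sum, hqred] at this
    rw [this]
    refine Finset.sum_congr rfl fun i _ => ?_
    rw [map_mul, map_pow, hred]

theorem hspan_Fbar (hρ : IsRed K v ρ) {x x' : F} (hx : x ∈ v.integer) (hx' : x' ∈ v.integer)
    {m : ℕ} (hm : 0 < m) (hxo : (ρ ⟨x, hx⟩).order = -(m : ℤ))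
    (hxo' : (ρ ⟨x', hx'⟩).order = -(m : ℤ) + 1)
    (hSp : Spans K x (fun i : Fin m => x' ^ (i : ℕ))) (z : Fbar hρ) :
    ∃ (d : k[X]) (p : Fin m → k[X]), d ≠ 0 ∧
      aeval (⟨ρ ⟨x, hx⟩, rho_mem_Fbar hρ _⟩ : Fbar hρ) d * z =
        ∑ i, aeval (⟨ρ ⟨x, hx⟩, rho_mem_Fbar hρ _⟩ : Fbar hρ) (p i) *
          ((⟨ρ ⟨x', hx'⟩, rho_mem_Fbar hρ _⟩ : Fbar hρ) *
            (⟨ρ ⟨x, hx⟩, rho_mem_Fbar hρ _⟩ : Fbar hρ)⁻¹) ^ (i : ℕ) := by
  obtain ⟨z, z0, rfl⟩ := z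
  obtain ⟨d, p, hd, h⟩ := w4_span_series hρ hx hx' hm hxo hxo' hSp z0
  have hxb : ρ ⟨x, hx⟩ ≠ 0 := by
    intro h0
    rw [h0, HahnSeries.order_zero] at hxo
    omega
  have hcoe : ∀ r : k[X], ((aeval (⟨ρ ⟨x, hx⟩, rho_mem_Fbar hρ _⟩ : Fbar hρ) r : Fbar hρ) :
      LaurentSeries k) = aeval (ρ ⟨x, hx⟩) r := by
    intro r
    exact (aeval_algHom_apply (Fbar hρ).val (⟨ρ ⟨x, hx⟩, rho_mem_Fbar hρ _⟩ : Fbar hρ) r).symm
  refine ⟨d, fun i => p i * X ^ (i : ℕ), hd, ?_⟩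
  apply Subtype.ext
  push_cast
  rw [hcoe, h]
  refine Finset.sum_congr rfl fun i _ => ?_
  rw [hcoe, map_mul, map_pow, aeval_X, mul_pow, mul_assoc]
  congr 1
  rw [mul_left_comm, ← mul_pow, mul_inv_cancel₀ hxb, one_pow, mul_one]

end Fermat.Agent.GAL.CTV
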