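import Fermat.Agent.GAL.CTV.Defs
import Fermat.Agent.GAL.CT.UniquePole

/-!
# GAL / CTV : CT-A8 in the namespace `CTV` (thin wrappers around `GAL/CT/UniquePole.lean`)
-/

set_option autoImplicit false

namespace Fermat.Agent.GAL.CTV

open Polynomial Fermat.Agent.GAL.KL

variable {k F : Type*} [Field k] [Field F] [Algebra k F]

theorem unique_pole (ι : F →ₐ[k] LaurentSeries k) (x u : F) (m : ℕ) (hm : 0 < m)
    (hx : (ι x).order = -m) (hu : (ι u).order = 1)
    (hspan : ∀ z : F, ∃ (d : k[X]) (p : Fin m → k[X]), d ≠ 0 ∧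
      aeval x d * z = ∑ i, aeval x (p i) * u ^ (i : ℕ))
    (O : ValuationSubring F) (hO : OverK k O) (hxO : x ∉ O) (z : F) :
    z ∈ O ↔ 0 ≤ (ι z).order :=
  CT.unique_pole ι x u m hm hx hu hspan O hO hxO z

/-- consequence: elements integral over `k[x]` satisfy `(Hξ)`. -/
theorem hxi_of_isInt (ι : F →ₐ[k] LaurentSeries k) (x u : F) (m : ℕ) (hm : 0 < m)
    (hx : (ι x).order = -m) (hu : (ι u).order = 1)
    (hspan : ∀ z : F, ∃ (d : k[X]) (p : Fin m → k[X]), d ≠ 0 ∧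
      aeval x d * z = ∑ i, aeval x (p i) * u ^ (i : ℕ))
    (ξ : F) (hξ : IsInt k x ξ) (O : ValuationSubring F) (hO : OverK k O) (hξO : ξ ∉ O) (z : F)
    (hz : 0 ≤ (ι z).order) : z ∈ O :=
  CT.hxi_of_isInt ι x u m hm hx hu hspan ξ hξ O hO hξO z hz

/-- consequence `(b1)`: an element integral over `k[x]` without pole at `q = 0` is constant. -/
theorem const_of_isInt (ι : F →ₐ[k] LaurentSeries k) (x u : F) (m : ℕ) (hm : 0 < m)
    (hx : (ι x).order = -m) (hu : (ι u).order = 1)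
    (hspan : ∀ z : F, ∃ (d : k[X]) (p : Fin m → k[X]), d ≠ 0 ∧
      aeval x d * z = ∑ i, aeval x (p i) * u ^ (i : ℕ))
    (ξ : F) (hξ : IsInt k x ξ) (h0 : 0 ≤ (ι ξ).order) : ∃ c : k, ξ = algebraMap k F c :=
  CT.const_of_isInt ι x u m hm hx hu hspan ξ hξ h0

end Fermat.Agent.GAL.CTV
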