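import Fermat.Agent.GAL.CTV.Defs

/-!
# GAL / CTV, W3 : finiteness over `k(t)`

`F` spanned by `m` elements over `k(x)` (`x` transcendental), `t` transcendental over `k`
`⟹` `F` is finite over `k(t)`.
-/

set_option autoImplicit false

open Polynomial

noncomputable section

namespace Fermat.Agent.GAL.CTV

variable {k : Type*} [Field k]

theorem w3_aeval_mem_KT {F : Type*} [Field F] [Algebra k F] (t : F) (P : k[X]) :
    aeval t P ∈ KT k t :=
  Subfield.subset_closure ⟨P, rfl⟩

theorem w3_algebraMap_mem_KT {F : Type*} [Field F] [Algebra k F] (t : F) (c : k) :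
    algebraMap k F c ∈ KT k t := by
  have := w3_aeval_mem_KT t (C c)
  rwa [aeval_C] at this

/-- `F` is algebraic over `k[x]`. -/
theorem w3_isAlgebraic_adjoin {F : Type*} [Field F] [Algebra k F] (x u : F) (m : ℕ)
    (hspan : ∀ z : F, ∃ (d : k[X]) (p : Fin m → k[X]), d ≠ 0 ∧
      aeval x d * z = ∑ i, aeval x (p i) * u ^ (i : ℕ))
    (hx : Transcendental k x) (S : Set F) (hS : x ∈ S) :
    Algebra.IsAlgebraic (Algebra.adjoin k S) F := by
  open scoped IntermediateField.algebraAdjoinAdjoin in
  have hmem : ∀ P : k[X], aeval x P ∈ IntermediateField.adjoin k S := fun P =>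
    IntermediateField.algebra_adjoin_le_adjoin k S
      (Polynomial.aeval_mem_adjoin_singleton k x |> fun h =>
        Algebra.adjoin_mono (Set.singleton_subset_iff.2 hS) h)
  have hfin : Module.Finite (IntermediateField.adjoin k S) F := by
    have htop : (⊤ : Submodule (IntermediateField.adjoin k S) F) =
        Submodule.span (IntermediateField.adjoin k S) (Set.range fun i : Fin m => u ^ (i : ℕ)) := by
      refine (eq_top_iff.2 fun z _ => ?_).symm
      obtain ⟨d, p, hd, h⟩ := hspan z
      have hd0 : aeval x d ≠ 0 := (transcendental_iff.1 hx d).mt hd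
      have hz : z = ∑ i : Fin m, ((⟨aeval x d, hmem d⟩ : IntermediateField.adjoin k S)⁻¹ *
          ⟨aeval x (p i), hmem (p i)⟩) • u ^ (i : ℕ) := by
        have : ∀ i : Fin m, ((⟨aeval x d, hmem d⟩ : IntermediateField.adjoin k S)⁻¹ *
          ⟨aeval x (p i), hmem (p i)⟩) • u ^ (i : ℕ) =
            (aeval x d)⁻¹ * (aeval x (p i) * u ^ (i : ℕ)) := fun i => by
          rw [Algebra.smul_def, ← mul_assoc]
          rfl
        simp only [this]
        rw [← Finset.mul_sum, ← h, inv_mul_cancel_left₀ hd0]
      rw [hz]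
      exact Submodule.sum_mem _ fun i _ =>
        Submodule.smul_mem _ _ (Submodule.subset_span ⟨i, rfl⟩)
    exact ⟨htop ▸ Submodule.fg_span (Set.finite_range _)⟩
  have h1 : Algebra.IsAlgebraic (IntermediateField.adjoin k S) F := Algebra.IsAlgebraic.of_finite _ _
  have h2 : Algebra.IsAlgebraic (Algebra.adjoin k S) (IntermediateField.adjoin k S) :=
    IsLocalization.isAlgebraic _ (nonZeroDivisors (Algebra.adjoin k S))
  exact Algebra.IsAlgebraic.trans (Algebra.adjoin k S) (IntermediateField.adjoin k S) F

/-- exchange: `F` is algebraic over `k(t)`. -/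
theorem w3_isIntegral_KT {F : Type*} [Field F] [Algebra k F] (x u t : F) (m : ℕ)
    (hspan : ∀ z : F, ∃ (d : k[X]) (p : Fin m → k[X]), d ≠ 0 ∧
      aeval x d * z = ∑ i, aeval x (p i) * u ^ (i : ℕ))
    (hx : Transcendental k x) (ht : Transcendental k t) (z : F) : IsIntegral (KT k t) z := by
  have hAx := w3_isAlgebraic_adjoin x u m hspan hx (Set.range fun _ : Unit => x) ⟨(), rfl⟩
  have hbx : IsTranscendenceBasis k (fun _ : Unit => x) :=
    isTranscendenceBasis_iff_algebraicIndependent_isAlgebraic.2
      ⟨algebraicIndependent_unique_type_iff.2 hx, hAx⟩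
  have htr := hbx.lift_cardinalMk_eq_trdeg
  have hbt : IsTranscendenceBasis k (fun _ : Unit => t) :=
    (algebraicIndependent_unique_type_iff.2 ht).isTranscendenceBasis_of_lift_trdeg_le_of_finite
      htr.ge
  have hAt := hbt.isAlgebraic_field
  set S : Set F := Set.range fun _ : Unit => t with hS
  have hle : (IntermediateField.adjoin k S).toSubfield ≤ KT k t := by
    change Subfield.closure (Set.range (algebraMap k F) ∪ S) ≤ KT k t
    rw [Subfield.closure_le]
    rintro y (⟨c, rfl⟩ | ⟨_, rfl⟩)
    · exact w3_algebraMap_mem_KT t c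
    · have := w3_aeval_mem_KT (k := k) t X
      rwa [aeval_X] at this
  let _ : Algebra (IntermediateField.adjoin k S) (KT k t) := (Subfield.inclusion hle).toAlgebra
  have : IsScalarTower (IntermediateField.adjoin k S) (KT k t) F :=
    IsScalarTower.of_algebraMap_eq (congrFun rfl)
  exact ((hAt.isAlgebraic z).extendScalars (Subfield.inclusion hle).injective).isIntegral

/-- **W3.**  NB: the hypothesis `hx` is necessary (`x = 0`, `d = X`, `p = 0`). -/
theorem finiteDimensional_KT {F : Type*} [Field F] [Algebra k F] (x u t : F) (m : ℕ)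
    (hspan : ∀ z : F, ∃ (d : k[X]) (p : Fin m → k[X]), d ≠ 0 ∧
      aeval x d * z = ∑ i, aeval x (p i) * u ^ (i : ℕ))
    (hx : Transcendental k x)
    (ht : Transcendental k t) : FiniteDimensional (KT k t) F := by
  have hint := w3_isIntegral_KT x u t m hspan hx ht
  have hfd : FiniteDimensional (KT k t) (IntermediateField.adjoin (KT k t) ({x, u} : Set F)) :=
    IntermediateField.finiteDimensional_adjoin fun y _ => hint y
  have hxm : x ∈ IntermediateField.adjoin (KT k t) ({x, u} : Set F) :=
    IntermediateField.subset_adjoin _ _ (Set.mem_insert _ _)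
  have hum : u ∈ IntermediateField.adjoin (KT k t) ({x, u} : Set F) :=
    IntermediateField.subset_adjoin _ _ (Set.mem_insert_of_mem _ rfl)
  have hcm : ∀ c : k, algebraMap k F c ∈ IntermediateField.adjoin (KT k t) ({x, u} : Set F) :=
    fun c => (IntermediateField.adjoin (KT k t) ({x, u} : Set F)).algebraMap_mem
      ⟨_, w3_algebraMap_mem_KT t c⟩
  have hpm : ∀ P : k[X], aeval x P ∈ IntermediateField.adjoin (KT k t) ({x, u} : Set F) := by
    intro P
    rw [aeval_eq_sum_range]
    refine sum_mem fun i _ => ?_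
    rw [Algebra.smul_def]
    exact mul_mem (hcm _) (pow_mem hxm _)
  have htop : IntermediateField.adjoin (KT k t) ({x, u} : Set F) = ⊤ := by
    refine eq_top_iff.2 fun z _ => ?_
    obtain ⟨d, p, hd, h⟩ := hspan z
    have hd0 : aeval x d ≠ 0 := (transcendental_iff.1 hx d).mt hd
    have hz : z = (aeval x d)⁻¹ * ∑ i, aeval x (p i) * u ^ (i : ℕ) := by
      rw [← h, inv_mul_cancel_left₀ hd0]
    rw [hz]
    exact mul_mem (inv_mem (hpm d)) (sum_mem fun i _ => mul_mem (hpm _) (pow_mem hum _))
  rw [htop] at hfd
  exact (IntermediateField.topEquiv (F := KT k t) (E := F)).toLinearEquiv.finiteDimensional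

theorem w3_coeff_smul (a : k) (x : LaurentSeries k) (n : ℤ) :
    (@HSMul.hSMul k (LaurentSeries k) _ (@instHSMul _ _ Algebra.toSMul) a x).coeff n =
      a * x.coeff n := by
  rw [Algebra.smul_def, HahnSeries.algebraMap_apply']
  simp

theorem transcendental_of_order_neg (t : LaurentSeries k) (ht : t.order < 0) :
    Transcendental k t := by
  rw [transcendental_iff]
  intro p hp
  by_contra hp0
  have ht0 : t ≠ 0 := by
    rintro rfl
    simp at ht
  have hord : ∀ i : ℕ, (t ^ i).order = (i : ℤ) * t.order := by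
    intro i
    rw [HahnSeries.order_pow, nsmul_eq_mul]
  have h : ∑ i ∈ Finset.range (p.natDegree + 1),
      p.coeff i * (t ^ i).coeff ((p.natDegree : ℤ) * t.order) = 0 := by
    have h := congrArg (fun x : LaurentSeries k => x.coeff ((p.natDegree : ℤ) * t.order)) hp
    simp only [aeval_eq_sum_range, HahnSeries.coeff_sum, HahnSeries.coeff_zero,
      w3_coeff_smul] at h
    exact h
  rw [Finset.sum_eq_single p.natDegree] at h
  · rcases mul_eq_zero.mp h with h | h
    · exact hp0 (leadingCoeff_eq_zero.mp h)
    · rw [← hord] at h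
      exact pow_ne_zero _ ht0 (HahnSeries.coeff_order_eq_zero.mp h)
  · intro i hi hne
    rw [HahnSeries.coeff_eq_zero_of_lt_order, mul_zero]
    rw [hord]
    have : i < p.natDegree := lt_of_le_of_ne (Nat.lt_succ_iff.mp (Finset.mem_range.mp hi)) hne
    have h2 : (i : ℤ) < p.natDegree := by exact_mod_cast this
    nlinarith
  · intro h'
    exact absurd (Finset.mem_range.mpr (Nat.lt_succ_self _)) h'

end Fermat.Agent.GAL.CTV
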