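import Mathlib

/-!
# GAL / CT-A3 (core, Mathlib only) : an embedding `F → Ω` which agrees with the standard one on `k(t)`
and maps `O_∞` into `V` is the standard one.
-/

set_option autoImplicit false

namespace Fermat.Agent.GAL.CTV

variable {k F : Type*} [Field k] [Field F] [Algebra k F]

theorem a3_one_le_order {w : LaurentSeries k} (hw : w ≠ 0) (h0 : 0 ≤ w.order) (hc : w.coeff 0 = 0) :
    1 ≤ w.order := by
  have h1 : w.coeff w.order ≠ 0 := fun h => hw (HahnSeries.coeff_order_eq_zero.mp h)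
  have h2 : w.order ≠ 0 := fun h => h1 (by rw [h]; exact hc)
  omega

theorem a3_ne_zero {ι : F →ₐ[k] LaurentSeries k} {t : F} (ht : (ι t).order = -1) : t ≠ 0 := by
  rintro rfl
  rw [map_zero, HahnSeries.order_zero] at ht
  omega

/-- one step of the `u`-adic expansion. -/
theorem a3_step (ι : F →ₐ[k] LaurentSeries k) (t : F) (ht : (ι t).order = -1) (z : F)
    (hz : 0 ≤ (ι z).order) :
    ∃ (c₀ : k) (z' : F), z = algebraMap k F c₀ + t⁻¹ * z' ∧ 0 ≤ (ι z').order := by
  have ht0 : t ≠ 0 := a3_ne_zero ht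
  refine ⟨(ι z).coeff 0, (z - algebraMap k F ((ι z).coeff 0)) * t, ?_, ?_⟩
  · field_simp
    ring
  · set w : LaurentSeries k := ι z - ι (algebraMap k F ((ι z).coeff 0)) with hw
    have hmap : ι ((z - algebraMap k F ((ι z).coeff 0)) * t) = w * ι t := by
      rw [map_mul, map_sub]
    rw [hmap]
    by_cases hw0 : w = 0
    · rw [hw0, zero_mul, HahnSeries.order_zero]
    · have hιt : ι t ≠ 0 := (map_ne_zero ι).mpr ht0
      rw [HahnSeries.order_mul hw0 hιt, ht]
      have hC : ι (algebraMap k F ((ι z).coeff 0)) = HahnSeries.C ((ι z).coeff 0) := by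
        rw [ι.commutes]
        have h1 : algebraMap k (PowerSeries k) ((ι z).coeff 0) = PowerSeries.C ((ι z).coeff 0) := by
          simp
        rw [HahnSeries.algebraMap_apply', h1, HahnSeries.ofPowerSeries_C]
      have hc : w.coeff 0 = 0 := by
        rw [hw, hC, HahnSeries.coeff_sub, HahnSeries.C_apply, HahnSeries.coeff_single_same, sub_self]
      have h0 : 0 ≤ w.order := by
        rw [HahnSeries.le_order_iff_forall hw0]
        intro j hj
        rw [hw, hC, HahnSeries.coeff_sub, HahnSeries.C_apply,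
          HahnSeries.coeff_single_of_ne (ne_of_lt hj),
          HahnSeries.coeff_eq_zero_of_lt_order (lt_of_lt_of_le hj hz), sub_zero]
      have := a3_one_le_order hw0 h0 hc
      omega

/-- **CT-A3, unbundled.** -/
theorem a3_core {Ω : Type*} [Field Ω] [Algebra (LaurentSeries k) Ω] {V : ValuationSubring Ω}
    (hmem : ∀ s : LaurentSeries k, algebraMap (LaurentSeries k) Ω s ∈ V ↔ 0 ≤ s.order)
    (hsep : ∀ s : LaurentSeries k, 0 < s.order → ∀ x : Ω,
      (∀ n : ℕ, ∃ y ∈ V, x = algebraMap (LaurentSeries k) Ω s ^ n * y) → x = 0)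
    (ι : F →ₐ[k] LaurentSeries k) (t : F) (ht : (ι t).order = -1) (σ : F →+* Ω)
    (hσk : ∀ c : k, σ (algebraMap k F c) = algebraMap (LaurentSeries k) Ω (ι (algebraMap k F c)))
    (hσt : σ t = algebraMap (LaurentSeries k) Ω (ι t))
    (h : ∀ z : F, 0 ≤ (ι z).order → σ z ∈ V) (z : F) :
    σ z = algebraMap (LaurentSeries k) Ω (ι z) := by
  have ht0 : t ≠ 0 := a3_ne_zero ht
  have hιt : ι t ≠ 0 := (map_ne_zero ι).mpr ht0
  have hu : (ι t⁻¹).order = 1 := by
    have h1 : ι t * ι t⁻¹ = 1 := by rw [← map_mul, mul_inv_cancel₀ ht0, map_one]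
    have h2 := HahnSeries.order_mul hιt ((map_ne_zero ι).mpr (inv_ne_zero ht0))
    rw [h1, HahnSeries.order_one, ht] at h2
    omega
  have hσu : σ t⁻¹ = algebraMap (LaurentSeries k) Ω (ι t⁻¹) := by
    rw [map_inv₀, map_inv₀, map_inv₀, hσt]
  have hB : ∀ n : ℕ, ∀ z : F, 0 ≤ (ι z).order → ∃ y ∈ V,
      σ z - algebraMap (LaurentSeries k) Ω (ι z) =
        algebraMap (LaurentSeries k) Ω (ι t⁻¹) ^ n * y := by
    intro n
    induction n with
    | zero =>
      intro z hz
      exact ⟨_, V.sub_mem (h z hz) ((hmem _).mpr hz), by rw [pow_zero, one_mul]⟩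
    | succ n ih =>
      intro z hz
      obtain ⟨c₀, z', rfl, hz'⟩ := a3_step ι t ht z hz
      obtain ⟨y, hy, hy'⟩ := ih z' hz'
      refine ⟨y, hy, ?_⟩
      rw [map_add, map_add, map_add, map_mul, map_mul, map_mul, hσk, hσu, pow_succ', mul_assoc,
        ← hy']
      ring
  have hC0 : ∀ z : F, 0 ≤ (ι z).order → σ z = algebraMap (LaurentSeries k) Ω (ι z) := by
    intro z hz
    exact sub_eq_zero.mp (hsep (ι t⁻¹) (by rw [hu]; norm_num) _ fun n => hB n z hz)
  have hC : ∀ N : ℕ, ∀ z : F, -(N : ℤ) ≤ (ι z).order →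
      σ z = algebraMap (LaurentSeries k) Ω (ι z) := by
    intro N
    induction N with
    | zero =>
      intro z hz
      exact hC0 z (by simpa using hz)
    | succ N ih =>
      intro z hz
      by_cases hz0 : z = 0
      · rw [hz0, map_zero, map_zero, map_zero]
      have h1 : -(N : ℤ) ≤ (ι (z * t⁻¹)).order := by
        rw [map_mul, HahnSeries.order_mul ((map_ne_zero ι).mpr hz0)
          ((map_ne_zero ι).mpr (inv_ne_zero ht0)), hu]
        push_cast at hz
        omega
      have h2 := ih _ h1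
      rw [map_mul, map_mul, map_mul, hσu] at h2
      have h3 : algebraMap (LaurentSeries k) Ω (ι t⁻¹) ≠ 0 :=
        (map_ne_zero _).mpr ((map_ne_zero ι).mpr (inv_ne_zero ht0))
      exact mul_right_cancel₀ h3 h2
  exact hC (-(ι z).order).toNat z (by omega)

end Fermat.Agent.GAL.CTV
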