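import Fermat.Agent.GAL.CTV.Defs
import Fermat.Agent.GAL.CTV.EmbEqCore

/-!
# GAL / CT-A3 : an embedding which maps `O_∞` into `V` is the standard one
-/

set_option autoImplicit false

namespace Fermat.Agent.GAL.CTV

open Polynomial Fermat.Agent.GAL.KL Fermat.Agent.S28

variable {k F : Type*} [Field k] [Field F] [Algebra k F]

theorem emb_eq_of_le {Ω : Type*} [Field Ω] [Algebra (LaurentSeries k) Ω] {V : ValuationSubring Ω}
    (hV : IsGoodVal k Ω V) (ι : F →ₐ[k] LaurentSeries k) (t : F) (ht : (ι t).order = -1)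
    (σ : F →+* Ω) (hσ : σ.comp (evT k t) = ((algebraMap (LaurentSeries k) Ω).comp (ι : F →+* _)).comp (evT k t))
    (h : ∀ z : F, 0 ≤ (ι z).order → σ z ∈ V) :
    σ = (algebraMap (LaurentSeries k) Ω).comp (ι : F →+* LaurentSeries k) := by
  refine RingHom.ext fun z => a3_core hV.mem_iff hV.sep ι t ht σ ?_ ?_ h z
  · intro c
    have := RingHom.congr_fun hσ (C c)
    simpa using this
  · have := RingHom.congr_fun hσ X
    simpa using this

end Fermat.Agent.GAL.CTV
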