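import Fermat.Agent.GAL.CT.Trace
import Fermat.Agent.GAL.CTV.ValOmega
import Fermat.Agent.GAL.CT.Radical
import Fermat.Agent.GAL.CTV.EmbEq
import Fermat.Agent.GAL.CTV.IntVal
import Fermat.Agent.GAL.KL.BasicInt

/-!
# GAL / CTV : CT-A6, the abstract constant term theorem `ct_alg` (assembly of CT-A1 .. CT-A5)
-/

set_option autoImplicit false

namespace Fermat.Agent.GAL.CTV

open Polynomial Fermat.Agent.GAL.KL Fermat.Agent.S28

variable {k F : Type*} [Field k] [Field F] [Algebra k F]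

theorem a6_algebraMap_eq (a : k) : algebraMap k (LaurentSeries k) a = HahnSeries.C a := by
  rw [HahnSeries.algebraMap_apply']
  simp

theorem a6_order_algebraMap (a : k) : 0 ≤ (algebraMap k (LaurentSeries k) a).order := by
  rw [a6_algebraMap_eq, HahnSeries.order_C]

theorem a6_coeff_zero_mul (s x D : LaurentSeries k) (hx : x.order = -1) (hD : -1 ≤ D.order)
    (h : s * x = 0 ∨ 0 < (s * x).order) : (s * D).coeff 0 = 0 := by
  have hx0 : x ≠ 0 := by
    rintro rfl
    simp at hx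
  have hinv : x⁻¹.order = 1 := by
    have h1 : (x * x⁻¹).order = x.order + x⁻¹.order :=
      HahnSeries.order_mul hx0 (inv_ne_zero hx0)
    rw [mul_inv_cancel₀ hx0, HahnSeries.order_one, hx] at h1
    omega
  have hsD : s * D = (s * x) * (x⁻¹ * D) := by
    field_simp
  by_cases hD0 : D = 0
  · simp [hD0]
  rcases h with h | h
  · rw [hsD, h, zero_mul, HahnSeries.coeff_zero]
  · have hsx : s * x ≠ 0 := by
      intro h0
      rw [h0, HahnSeries.order_zero] at h
      exact lt_irrefl _ h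
    apply HahnSeries.coeff_eq_zero_of_lt_order
    rw [hsD, HahnSeries.order_mul hsx (mul_ne_zero (inv_ne_zero hx0) hD0),
      HahnSeries.order_mul (inv_ne_zero hx0) hD0, hinv]
    omega

theorem a6_coeff_zero_aeval (x D : LaurentSeries k) (hres : ∀ m : ℕ, (x ^ m * D).coeff 0 = 0)
    (T : k[X]) : (aeval x T * D).coeff 0 = 0 := by
  induction T using Polynomial.induction_on' with
  | add p q hp hq => rw [map_add, add_mul, HahnSeries.coeff_add, hp, hq, add_zero]
  | monomial n a =>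
    rw [aeval_monomial, a6_algebraMap_eq, mul_assoc, HahnSeries.C_mul_eq_smul,
      HahnSeries.coeff_smul, hres, smul_zero]

/-- an element algebraic over `k` lies in every valuation subring containing `k`. -/
theorem a6_mem_of_isAlgebraic (z : F) (hz : IsAlgebraic k z) (O : ValuationSubring F)
    (hO : OverK k O) : z ∈ O := by
  have h1 : IsInt k (0 : F) z := by
    obtain ⟨q, hq, hq0⟩ := hz.isIntegral
    refine ⟨q.map C, hq.map _, ?_⟩
    rw [eval₂_map]
    have : (((aeval (0 : F) : k[X] →ₐ[k] F) : k[X] →+* F).comp C) = algebraMap k F := by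
      ext a
      simp
    rw [this]
    exact hq0
  exact (isInt_iff_forall_valuationSubring (k := k) 0 z).mp h1 O hO O.zero_mem

section
variable {Ω : Type*} [Field Ω] [Algebra (LaurentSeries k) Ω] {V : ValuationSubring Ω}

theorem a6_overK (hV : IsGoodVal k Ω V) (ι : F →ₐ[k] LaurentSeries k) (t : F)
    (σ : F →+* Ω) (hσ : σ.comp (evT k t) =
      ((algebraMap (LaurentSeries k) Ω).comp (ι : F →+* _)).comp (evT k t)) :
    OverK k (V.comap σ) := by
  intro a
  rw [ValuationSubring.mem_comap]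
  have h1 := congrArg (fun f : k[X] →+* Ω => f (C a)) hσ
  simp only [RingHom.comp_apply, RingHom.coe_coe, aeval_C, AlgHom.commutes] at h1
  rw [h1]
  exact (hV.mem_iff _).mpr (a6_order_algebraMap a)

theorem a6_map_t (ι : F →ₐ[k] LaurentSeries k) (t : F)
    (σ : F →+* Ω) (hσ : σ.comp (evT k t) =
      ((algebraMap (LaurentSeries k) Ω).comp (ι : F →+* _)).comp (evT k t)) :
    σ t = algebraMap (LaurentSeries k) Ω (ι t) := by
  have h1 := congrArg (fun f : k[X] →+* Ω => f X) hσ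
  simpa only [RingHom.comp_apply, RingHom.coe_coe, aeval_X] using h1

theorem a6_t_not_mem (hV : IsGoodVal k Ω V) (ι : F →ₐ[k] LaurentSeries k) (t : F)
    (ht : (ι t).order = -1)
    (σ : F →+* Ω) (hσ : σ.comp (evT k t) =
      ((algebraMap (LaurentSeries k) Ω).comp (ι : F →+* _)).comp (evT k t)) :
    t ∉ V.comap σ := by
  rw [ValuationSubring.mem_comap, a6_map_t ι t σ hσ, hV.mem_iff, ht]
  omega

theorem a6_injective_evT (hV : IsGoodVal k Ω V) (ι : F →ₐ[k] LaurentSeries k) (t : F)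
    (ht : (ι t).order = -1) : Function.Injective (evT k t) := by
  rw [injective_iff_map_eq_zero]
  intro p hp
  by_contra hp0
  have halg : IsAlgebraic k t := ⟨p, hp0, hp⟩
  exact a6_t_not_mem hV ι t ht _ rfl (a6_mem_of_isAlgebraic t halg _ (a6_overK hV ι t _ rfl))

theorem a6_val_lt_one (hV : IsGoodVal k Ω V) (ι : F →ₐ[k] LaurentSeries k) (t : F)
    (ht : (ι t).order = -1) (ξ y : F)
    (hξ : ∀ O : ValuationSubring F, OverK k O → ξ ∉ O → ∀ z : F, 0 ≤ (ι z).order → z ∈ O)
    (n₂ : ℕ)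
    (hy2 : ∀ O : ValuationSubring F, OverK k O → t ∉ O → y ^ n₂ * t ^ (n₂ + 1) ∈ O)
    (σ : F →+* Ω) (hσ : σ.comp (evT k t) =
      ((algebraMap (LaurentSeries k) Ω).comp (ι : F →+* _)).comp (evT k t))
    (hne : σ ≠ (algebraMap (LaurentSeries k) Ω).comp (ι : F →+* LaurentSeries k)) :
    V.valuation (σ (ξ * y) * algebraMap (LaurentSeries k) Ω (ι t)) < 1 := by
  have hO := a6_overK hV ι t σ hσ
  have htO := a6_t_not_mem hV ι t ht σ hσ
  have hξO : ξ ∈ V.comap σ := by
    by_contra h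
    exact hne (emb_eq_of_le hV ι t ht σ hσ fun z hz => hξ _ hO h z hz)
  have hy := hy2 _ hO htO
  rw [ValuationSubring.mem_comap, ← ValuationSubring.valuation_le_one_iff] at hξO hy htO
  rw [← a6_map_t ι t σ hσ]
  rw [map_mul, map_pow, map_pow, map_mul, map_pow, map_pow] at hy
  rw [map_mul, map_mul, map_mul]
  generalize V.valuation (σ ξ) = a at *
  generalize V.valuation (σ y) = b at *
  generalize V.valuation (σ t) = τ at *
  by_contra hcon
  rw [not_lt] at hcon
  apply htO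
  have h1 : 1 ≤ b * τ := by
    calc 1 ≤ a * b * τ := hcon
      _ = a * (b * τ) := mul_assoc _ _ _
      _ ≤ 1 * (b * τ) := mul_le_mul_left hξO _
      _ = b * τ := one_mul _
  have h2 : 1 ≤ (b * τ) ^ n₂ := one_le_pow_of_one_le' h1 n₂
  calc τ = 1 * τ := (one_mul _).symm
    _ ≤ (b * τ) ^ n₂ * τ := mul_le_mul_left h2 _
    _ = b ^ n₂ * τ ^ (n₂ + 1) := by rw [mul_pow, pow_succ, mul_assoc]
    _ ≤ 1 := hy

end

/-! ## CT-A6 : the abstract constant term theorem -/
theorem ct_alg (ι : F →ₐ[k] LaurentSeries k) (t : F) (ht : (ι t).order = -1)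
    (hfd : FiniteDimensional (KT k t) F) (hsep : Algebra.IsSeparable (KT k t) F)
    (W : k[X]) (hW : Squarefree W) (ξ y η : F)
    (hξ : ∀ O : ValuationSubring F, OverK k O → ξ ∉ O → ∀ z : F, 0 ≤ (ι z).order → z ∈ O)
    (n₁ : ℕ) (hn₁ : 0 < n₁) (hη : (y * aeval t W) ^ n₁ = aeval t W * η)
    (hy1 : ∀ O : ValuationSubring F, OverK k O → t ∈ O → η ∈ O)
    (n₂ : ℕ) (_hn₂ : 0 < n₂)
    (hy2 : ∀ O : ValuationSubring F, OverK k O → t ∉ O → y ^ n₂ * t ^ (n₂ + 1) ∈ O)
    (D : LaurentSeries k) (hD : -1 ≤ D.order) (hres : ∀ m : ℕ, (ι t ^ m * D).coeff 0 = 0) :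
    (ι ξ * ι y * D).coeff 0 = 0 := by
  classical
  obtain ⟨V, hV⟩ := exists_isGoodVal k (AlgebraicClosure (LaurentSeries k))
  set c : LaurentSeries k →+* AlgebraicClosure (LaurentSeries k) := algebraMap _ _ with hc
  set i : k[X] →+* F := evT k t with hidef
  set σ0 : F →+* AlgebraicClosure (LaurentSeries k) := c.comp (ι : F →+* LaurentSeries k) with hσ0
  set e : k[X] →+* AlgebraicClosure (LaurentSeries k) := σ0.comp i with hedef
  have hi : Function.Injective i := a6_injective_evT hV ι t ht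
  have he : Function.Injective e := σ0.injective.comp hi
  have : Finite (Emb i e) := CT.finite_Emb_sep i e hi he hfd
  let _ : Fintype (Emb i e) := Fintype.ofFinite _
  -- (1)
  have hξ1 : ∀ O : ValuationSubring F, OverK k O → t ∈ O → ξ ∈ O := by
    intro O hO htO
    by_contra h
    exact h (mem_of_le_of_mem ι t ht O (hξ O hO h) htO ξ)
  -- (2)
  have hζb : (ξ * y * aeval t W) ^ n₁ = aeval t W * (ξ ^ n₁ * η) := by
    calc (ξ * y * aeval t W) ^ n₁ = ξ ^ n₁ * (y * aeval t W) ^ n₁ := by ring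
      _ = _ := by rw [hη]; ring
  have hb : IsInt k t (ξ ^ n₁ * η) := (isInt_iff_forall_valuationSubring t _).mpr
    fun O hO htO => O.mul_mem _ _ (O.pow_mem (hξ1 O hO htO) _) (hy1 O hO htO)
  have hζ : IsInt k t (ξ * y * aeval t W) :=
    IsInt.of_pow hn₁ (hζb ▸ (IsInt.aeval W).mul hb)
  -- (3)
  obtain ⟨P, hP⟩ := CT.exists_trace_sep i e hi he hfd hsep _ hζ
  have hWP : W ∣ P := by
    refine CT.dvd_of_sum_radical e he W P hW Finset.univ
      (fun σ : Emb i e => σ.1 (ξ * y * aeval t W)) (fun σ => σ.1 (ξ ^ n₁ * η)) n₁ hn₁ ?_ ?_ hP.symm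
    · rintro ⟨σ, hσ⟩ _
      obtain ⟨q, hq, hq0⟩ := hb
      refine ⟨q, hq, ?_⟩
      show eval₂ e (σ _) q = 0
      rw [← hσ, ← hom_eval₂]
      exact (congrArg σ hq0).trans (map_zero _)
    · rintro ⟨σ, hσ⟩ _
      show σ _ ^ n₁ = e W * σ _
      rw [← map_pow, hζb, map_mul, ← hσ]
      rfl
  obtain ⟨T, rfl⟩ := hWP
  have hW0 : e W ≠ 0 := by
    rw [Ne, map_eq_zero_iff e he]
    exact hW.ne_zero
  have hT : ∑ σ : Emb i e, σ.1 (ξ * y) = e T := by
    apply mul_right_cancel₀ hW0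
    rw [Finset.sum_mul, ← map_mul, mul_comm T W, ← hP]
    refine Finset.sum_congr rfl ?_
    rintro ⟨σ, hσ⟩ _
    show σ _ * e W = σ _
    rw [← hσ, map_mul σ (ξ * y)]
    rfl
  -- (5)
  let s0 : Emb i e := ⟨σ0, rfl⟩
  have hs : c ((aeval (ι t) T - ι (ξ * y)) * ι t) =
      ∑ σ ∈ (Finset.univ : Finset (Emb i e)).erase s0, σ.1 (ξ * y) * c (ι t) := by
    rw [← Finset.sum_mul, map_mul, map_sub]
    congr 1
    rw [← Finset.add_sum_erase Finset.univ _ (Finset.mem_univ s0)] at hT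
    have heT : e T = c (aeval (ι t) T) := by
      show c (ι (aeval t T)) = _
      rw [Polynomial.aeval_algHom_apply]
    rw [← heT, ← hT]
    show σ0 (ξ * y) + _ - σ0 (ξ * y) = _
    ring
  have hlt : V.valuation (c ((aeval (ι t) T - ι (ξ * y)) * ι t)) < 1 := by
    rw [hs]
    refine Valuation.map_sum_lt _ one_ne_zero fun σ hσ => ?_
    refine a6_val_lt_one hV ι t ht ξ y hξ n₂ hy2 σ.1 σ.2 fun h => ?_
    exact (Finset.ne_of_mem_erase hσ) (Subtype.ext h)
  have h5 := a6_coeff_zero_mul _ _ D ht hD ((hV.lt_one_iff _).mp hlt)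
  have h6 := a6_coeff_zero_aeval (ι t) D hres T
  rw [sub_mul, HahnSeries.coeff_sub, h6, zero_sub, neg_eq_zero, map_mul] at h5
  exact h5

end Fermat.Agent.GAL.CTV
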