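import Fermat.Agent.GAL.KL.Defs
import Fermat.Agent.S28.FieldSetup

/-!
# GAL / CTV : the constant term lemma (b2).  Shared definitions (abstract part; no sorry)

`k` a field, `F` a field with a `k`-embedding `ι : F → k((q))` ("`q`-expansion"), `t : F` with
`ord_q t = -1`.  Integrality conditions are expressed with valuation subrings of `F` containing `k`.
-/

set_option autoImplicit false

namespace Fermat.Agent.GAL.CTV

open Polynomial

variable (k : Type*) {F : Type*} [Field k] [Field F] [Algebra k F]

/-- `k[X] → F`, `X ↦ t`, as a ring homomorphism. -/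
noncomputable abbrev evT (t : F) : k[X] →+* F := ((aeval t : k[X] →ₐ[k] F) : k[X] →+* F)

/-- the subfield `k(t)` of `F`. -/
abbrev KT (t : F) : Subfield F := Subfield.closure (Set.range (evT k t))

/-- the valuation subring `O` contains the constants. -/
def OverK (O : ValuationSubring F) : Prop := ∀ c : k, algebraMap k F c ∈ O

/-- `θ = q d/dq` on Laurent series, as an additive map. -/
def theta {R : Type*} [CommRing R] (f : LaurentSeries R) : LaurentSeries R where
  coeff n := (n : R) * f.coeff n
  isPWO_support' := f.isPWO_support.mono fun n hn => by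
    rw [Function.mem_support] at hn
    rw [HahnSeries.mem_support]
    exact fun h => hn (by rw [h, mul_zero])

@[simp] theorem coeff_theta {R : Type*} [CommRing R] (f : LaurentSeries R) (n : ℤ) :
    (theta f).coeff n = (n : R) * f.coeff n := rfl

/-- (CT-A2) `V` dominates `k[[q]]` and is separated for the `q`-adic topology. -/
structure IsGoodVal (Ω : Type*) [Field Ω] [Algebra (LaurentSeries k) Ω] (V : ValuationSubring Ω) :
    Prop where
  mem_iff : ∀ s : LaurentSeries k, algebraMap (LaurentSeries k) Ω s ∈ V ↔ 0 ≤ s.order
  lt_one_iff : ∀ s : LaurentSeries k, V.valuation (algebraMap (LaurentSeries k) Ω s) < 1 ↔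
    (s = 0 ∨ 0 < s.order)
  sep : ∀ s : LaurentSeries k, 0 < s.order → ∀ x : Ω,
    (∀ n : ℕ, ∃ y ∈ V, x = algebraMap (LaurentSeries k) Ω s ^ n * y) → x = 0

end Fermat.Agent.GAL.CTV
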