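import Fermat.Agent.GAL.CTV.WDefs
import Fermat.Agent.GAL.KLC.ValThm

/-!
# GAL / CTV / W8 : small concrete facts

* `perfectField_kA` : the residue field of a valuation subring of `ℚ̄` over `ℓ` is perfect
* `jZ_mem`, `cZ_mem_Fbar` : membership facts
* `order_cZ`, `cZ_pZ`, `cZ_DZi`, `cZ_theta`, `res_cZ` : coefficientwise reduction of integer series
-/

set_option autoImplicit false

open Polynomial ModularCurve AlgebraicCurve

noncomputable section

namespace Fermat.Agent.GAL.CTV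

open Fermat.Agent.GAL.KL Fermat.Agent.GAL.KLC Fermat.Agent.GR

/-- an element of `ℚ̄` a positive power of which lies in `A` lies in `A`. -/
theorem w8_mem_of_pow_mem (A : ValuationSubring Qb) {x : Qb} {n : ℕ} (hn : n ≠ 0)
    (h : x ^ n ∈ A) : x ∈ A := by
  rcases A.mem_or_inv_mem x with hx | hx
  · exact hx
  · by_cases hx0 : x = 0
    · rw [hx0]; exact A.zero_mem
    obtain ⟨m, rfl⟩ := Nat.exists_eq_succ_of_ne_zero hn
    have e : x = x ^ (m + 1) * x⁻¹ ^ m := by
      rw [pow_succ, inv_pow, mul_right_comm, mul_inv_cancel₀ (pow_ne_zero _ hx0), one_mul]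
    rw [e]
    exact A.mul_mem _ _ h (A.pow_mem hx m)

theorem perfectField_kA {ℓ : ℕ} (hℓ : ℓ.Prime) (A : ValuationSubring Qb) (hA : A.LiesOverPrime ℓ) :
    PerfectField (kA A) := by
  have : Fact ℓ.Prime := ⟨hℓ⟩
  have : CharP (kA A) ℓ := charP_residueField hℓ hA
  have : ExpChar (kA A) ℓ := ExpChar.prime hℓ
  have : PerfectRing (kA A) ℓ := by
    refine PerfectRing.ofSurjective (kA A) ℓ ?_
    intro c
    obtain ⟨a, rfl⟩ := IsLocalRing.residue_surjective c
    obtain ⟨x, hx⟩ := IsAlgClosed.exists_pow_nat_eq (a : Qb) hℓ.pos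
    have hxA : x ∈ A := w8_mem_of_pow_mem A hℓ.ne_zero (by rw [hx]; exact a.2)
    refine ⟨IsLocalRing.residue A ⟨x, hxA⟩, ?_⟩
    rw [frobenius_def, ← map_pow]
    congr 1
    exact Subtype.ext hx
  exact PerfectRing.toPerfectField (kA A) ℓ

theorem jZ_mem (M : ℕ) : cZ Qb jZ ∈ FL Qb M := by
  have h1 : cZ Qb jZ = coeffEmb Qb (qExpand ℚ 1 jq) := by
    rw [qExpand_one_apply, coeffMap_jqModC]
    exact (coeffMap_jqModC (algebraMap ℚ Qb)).symm
  rw [h1]
  exact coeffEmb_mem_laurentBaseChange Qb (jqd_mem_full M (one_dvd M))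

theorem cZ_mem_Fbar (A : ValuationSubring Qb) (M : ℕ) (y : LaurentSeries ℤ)
    (hy : cZ Qb y ∈ FL Qb M) : cZ (kA A) y ∈ Fbar (isRed A M) := by
  obtain ⟨h, e⟩ := rho_int A M y hy
  exact (mem_Fbar (isRed A M)).2 ⟨_, e⟩

theorem order_cZ {R : Type*} [CommRing R] [Nontrivial R] (y : LaurentSeries ℤ) (e : ℤ)
    (h : ∃ u : PowerSeries ℤ, PowerSeries.constantCoeff u = 1 ∧
      y = HahnSeries.single e 1 * HahnSeries.ofPowerSeries ℤ ℤ u) : (cZ R y).order = e := by
  obtain ⟨u, hu, rfl⟩ := h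
  rw [map_mul, coeffMap_single, ModularCurve.coeffMap_ofPowerSeries, map_one]
  have hc : ∀ k : ℤ, (HahnSeries.single e (1 : R) *
      HahnSeries.ofPowerSeries ℤ R (u.map (Int.castRingHom R))).coeff k =
      (HahnSeries.ofPowerSeries ℤ R (u.map (Int.castRingHom R))).coeff (k - e) := by
    intro k
    rw [HahnSeries.coeff_single_mul, one_mul]
  have he : (HahnSeries.single e (1 : R) *
      HahnSeries.ofPowerSeries ℤ R (u.map (Int.castRingHom R))).coeff e ≠ 0 := by
    rw [hc, sub_self]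
    have h0 := HahnSeries.ofPowerSeries_apply_coeff (Γ := ℤ) (u.map (Int.castRingHom R)) 0
    rw [Nat.cast_zero] at h0
    rw [h0, PowerSeries.coeff_map, PowerSeries.coeff_zero_eq_constantCoeff_apply, hu, map_one]
    exact one_ne_zero
  have hne : HahnSeries.single e (1 : R) *
      HahnSeries.ofPowerSeries ℤ R (u.map (Int.castRingHom R)) ≠ 0 := by
    intro h0
    rw [h0] at he
    exact he rfl
  apply le_antisymm (HahnSeries.order_le_of_coeff_ne_zero he)
  rw [HahnSeries.le_order_iff_forall hne]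
  intro j hj
  rw [hc]
  exact ofPowerSeries_coeff_of_neg _ (by omega)

theorem cZ_pZ (R : Type*) [CommRing R] (f : PowerSeries ℤ) : cZ R (pZ f) = psR R f :=
  ModularCurve.coeffMap_ofPowerSeries (Int.castRingHom R) f

theorem cZ_DZi (k : Type*) [Field k] : cZ k DZi = (cZ k DZ)⁻¹ := by
  have h : cZ k DZ * cZ k DZi = 1 := by
    rw [← map_mul, S28.DqC_mul_DqInvC, map_one]
  exact eq_inv_of_mul_eq_one_right h

theorem cZ_theta (R : Type*) [CommRing R] (y : LaurentSeries ℤ) :
    cZ R (CT.theta y) = CT.theta (cZ R y) :=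
  (CT.a0_theta_coeffMap (Int.castRingHom R) y).symm

theorem res_cZ (R : Type*) [CommRing R] (y : LaurentSeries ℤ) (m : ℕ) :
    (cZ R y ^ m * CT.theta (cZ R y)).coeff 0 = 0 :=
  CT.a0_coeff_zero_pow_mul_theta_coeffMap (Int.castRingHom R) y m

end Fermat.Agent.GAL.CTV
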