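import Fermat.Agent.GAL.CTV.WDefs
import Fermat.Agent.GAL.CTV.IntVal

/-!
# GAL / CTV / W7 : `t`-data on a Hauptmodul line

`j t^r = Nt(t)`, `(θt)⁶ = t^(6-r) (t+c₀)^(r+1) Δ`.
-/

set_option autoImplicit false

open Polynomial ModularCurve AlgebraicCurve

noncomputable section

namespace Fermat.Agent.GAL.CTV

open Fermat.Agent.GAL.KL Fermat.Agent.GAL.KLC Fermat.Agent.GR

variable {k : Type*} [Field k]

section General

variable {L : Type*} [Field L] [Algebra k L]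

/-- a polynomial with nonzero constant coefficient, evaluated at a nonunit of `O`, is a unit of `O`. -/
theorem w7_inv_aeval_mem (O : ValuationSubring L) (hO : OverK k O) (s : L) (hs : s ∈ O)
    (hs' : s⁻¹ ∉ O) (P : k[X]) (hP : P.coeff 0 ≠ 0) : (aeval s P)⁻¹ ∈ O := by
  have hv : O.valuation s < 1 := by
    have h1 : ¬ O.valuation s⁻¹ ≤ 1 := fun h => hs' ((O.valuation_le_one_iff _).mp h)
    rw [not_le, map_inv₀] at h1
    have hs0 : O.valuation s ≠ 0 := by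
      intro h0
      rw [h0, inv_zero] at h1
      exact absurd h1 (not_lt.mpr zero_le_one)
    exact (one_lt_inv₀ (zero_lt_iff.mpr hs0)).mp h1
  have hb : O.valuation (aeval s (divX P)) ≤ 1 :=
    (O.valuation_le_one_iff _).mpr (a4_aeval_mem s O hO hs _)
  have hc : O.valuation (algebraMap k L (P.coeff 0)) = 1 := by
    refine le_antisymm ((O.valuation_le_one_iff _).mpr (hO _)) ?_
    have h1 : O.valuation (algebraMap k L (P.coeff 0)⁻¹) ≤ 1 := (O.valuation_le_one_iff _).mpr (hO _)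
    rw [map_inv₀, map_inv₀] at h1
    have h0 : O.valuation (algebraMap k L (P.coeff 0)) ≠ 0 := by
      rw [Ne, map_eq_zero, map_eq_zero]
      exact hP
    exact (inv_le_one₀ (zero_lt_iff.mpr h0)).mp h1
  have hdec : aeval s P = aeval s (divX P) * s + algebraMap k L (P.coeff 0) := by
    conv_lhs => rw [← divX_mul_X_add P]
    simp
  have hlt : O.valuation (aeval s (divX P) * s) < O.valuation (algebraMap k L (P.coeff 0)) := by
    rw [hc, map_mul]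
    exact Right.mul_lt_one_of_le_of_lt hb hv
  have h1 : O.valuation (aeval s P) = 1 := by
    rw [hdec, Valuation.map_add_eq_of_lt_right _ hlt, hc]
  rw [← O.valuation_le_one_iff, map_inv₀, h1, inv_one]

/-- (hy1) -/
theorem w7_fin (O : ValuationSubring L) (hO : OverK k O) (r a N : ℕ) (hr : 1 ≤ r) (hN : 0 < N)
    (ha : r * N = a + 1) (Nt : k[X]) (hN0 : Nt.coeff 0 ≠ 0) (j g t : L) (ht0 : t ≠ 0) (hj0 : j ≠ 0)
    (hJ : j * t ^ r = aeval t Nt) (hG1 : IsInt k j g) (hG2 : IsInt k j⁻¹ (g ^ N * j⁻¹ ^ (N - 1)))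
    (ht : t ∈ O) : g ^ N * t ^ a ∈ O := by
  by_cases hu : t⁻¹ ∈ O
  · -- `t` is a unit
    have hj : j ∈ O := by
      have : j = aeval t Nt * t⁻¹ ^ r := by
        rw [← hJ, mul_assoc, ← mul_pow, mul_inv_cancel₀ ht0, one_pow, mul_one]
      rw [this]
      exact O.mul_mem _ _ (a4_aeval_mem t O hO ht _) (O.pow_mem hu _)
    exact O.mul_mem _ _ (O.pow_mem ((isInt_iff_forall_valuationSubring j g).mp hG1 O hO hj) _)
      (O.pow_mem ht _)
  · have hNt : (aeval t Nt)⁻¹ ∈ O := w7_inv_aeval_mem O hO t ht hu Nt hN0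
    have hj : j⁻¹ ∈ O := by
      have : j⁻¹ = t ^ r * (aeval t Nt)⁻¹ := by
        rw [← hJ, mul_inv, mul_comm j⁻¹, ← mul_assoc, mul_inv_cancel₀ (pow_ne_zero _ ht0), one_mul]
      rw [this]
      exact O.mul_mem _ _ (O.pow_mem ht _) hNt
    have hz2 := (isInt_iff_forall_valuationSubring j⁻¹ _).mp hG2 O hO hj
    have hexp : r * (N - 1) + (r - 1) = a := by
      obtain ⟨N', rfl⟩ : ∃ N', N = N' + 1 := ⟨N - 1, by omega⟩
      rw [Nat.mul_succ] at ha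
      rw [Nat.add_sub_cancel]
      omega
    have key : g ^ N * t ^ a = (g ^ N * j⁻¹ ^ (N - 1)) * aeval t Nt ^ (N - 1) * t ^ (r - 1) := by
      rw [← hJ, mul_pow, ← pow_mul, ← hexp, pow_add]
      have : j⁻¹ ^ (N - 1) * j ^ (N - 1) = 1 := by
        rw [← mul_pow, inv_mul_cancel₀ hj0, one_pow]
      calc g ^ N * (t ^ (r * (N - 1)) * t ^ (r - 1))
          = g ^ N * (j⁻¹ ^ (N - 1) * j ^ (N - 1)) * t ^ (r * (N - 1)) * t ^ (r - 1) := by
            rw [this]; ring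
        _ = _ := by ring
    rw [key]
    exact O.mul_mem _ _ (O.mul_mem _ _ hz2 (O.pow_mem (a4_aeval_mem t O hO ht _) _)) (O.pow_mem ht _)

/-- (hy2) -/
theorem w7_inf (O : ValuationSubring L) (hO : OverK k O) (r N : ℕ)
    (Nt : k[X]) (hNm : Nt.Monic) (hNd : Nt.natDegree = r + 1) (j g t : L) (ht0 : t ≠ 0)
    (hJ : j * t ^ r = aeval t Nt) (hG2 : IsInt k j⁻¹ (g ^ N * j⁻¹ ^ (N - 1)))
    (ht : t ∉ O) : g ^ N * t⁻¹ ^ (N - 1) ∈ O := by
  have hu : t⁻¹ ∈ O := (O.mem_or_inv_mem t).resolve_left ht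
  have hu' : (t⁻¹)⁻¹ ∉ O := by rwa [inv_inv]
  have hrev0 : (reverse Nt).coeff 0 ≠ 0 := by
    rw [coeff_zero_reverse, hNm.leadingCoeff]
    exact one_ne_zero
  have hν : aeval t⁻¹ (reverse Nt) ∈ O := a4_aeval_mem _ O hO hu _
  have hνi : (aeval t⁻¹ (reverse Nt))⁻¹ ∈ O := w7_inv_aeval_mem O hO _ hu hu' _ hrev0
  have hrel : aeval t⁻¹ (reverse Nt) * t ^ (r + 1) = aeval t Nt := by
    let _ := invertibleOfNonzero ht0
    have h := eval₂_reverse_mul_pow (algebraMap k L) t Nt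
    rw [invOf_eq_inv, hNd] at h
    exact h
  have hj : j = aeval t⁻¹ (reverse Nt) * t := by
    have h1 : j * t ^ r = (aeval t⁻¹ (reverse Nt) * t) * t ^ r := by
      rw [hJ, ← hrel, pow_succ]
      ring
    exact mul_right_cancel₀ (pow_ne_zero _ ht0) h1
  have hν0 : aeval t⁻¹ (reverse Nt) ≠ 0 := by
    intro h0
    -- contradiction through the decomposition
    have hdec : aeval t⁻¹ (reverse Nt) =
        aeval t⁻¹ (divX (reverse Nt)) * t⁻¹ + algebraMap k L ((reverse Nt).coeff 0) := by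
      conv_lhs => rw [← divX_mul_X_add (reverse Nt)]
      simp
    rw [h0, coeff_zero_reverse, hNm.leadingCoeff, map_one] at hdec
    have h4 : t = -aeval t⁻¹ (divX (reverse Nt)) := by
      have : (aeval t⁻¹ (divX (reverse Nt)) * t⁻¹ + 1) * t = 0 := by rw [← hdec, zero_mul]
      rw [add_mul, mul_assoc, inv_mul_cancel₀ ht0, mul_one, one_mul] at this
      exact eq_neg_of_add_eq_zero_right this
    exact ht (h4 ▸ O.neg_mem _ (a4_aeval_mem _ O hO hu _))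
  have hji : j⁻¹ = t⁻¹ * (aeval t⁻¹ (reverse Nt))⁻¹ := by
    rw [hj, mul_inv, mul_comm]
  have hjO : j⁻¹ ∈ O := by
    rw [hji]
    exact O.mul_mem _ _ hu hνi
  have hz2 := (isInt_iff_forall_valuationSubring j⁻¹ _).mp hG2 O hO hjO
  have key : g ^ N * t⁻¹ ^ (N - 1) =
      (g ^ N * j⁻¹ ^ (N - 1)) * aeval t⁻¹ (reverse Nt) ^ (N - 1) := by
    rw [hji, mul_pow]
    have : (aeval t⁻¹ (reverse Nt))⁻¹ ^ (N - 1) * aeval t⁻¹ (reverse Nt) ^ (N - 1) = 1 := by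
      rw [← mul_pow, inv_mul_cancel₀ hν0, one_pow]
    calc g ^ N * t⁻¹ ^ (N - 1)
        = g ^ N * t⁻¹ ^ (N - 1) *
          ((aeval t⁻¹ (reverse Nt))⁻¹ ^ (N - 1) * aeval t⁻¹ (reverse Nt) ^ (N - 1)) := by
          rw [this, mul_one]
      _ = _ := by ring
  rw [key]
  exact O.mul_mem _ _ hz2 (O.pow_mem hν _)

theorem w7_squarefree (c₀ : k) (hc₀ : c₀ ≠ 0) : Squarefree (X * (X + C c₀) : k[X]) := by
  refine Separable.squarefree ?_
  refine separable_X.mul (separable_X_add_C c₀) ⟨-C c₀⁻¹, C c₀⁻¹, ?_⟩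
  have : (C c₀⁻¹ * C c₀ : k[X]) = 1 := by rw [← C_mul, inv_mul_cancel₀ hc₀, C_1]
  calc -C c₀⁻¹ * X + C c₀⁻¹ * (X + C c₀) = C c₀⁻¹ * C c₀ := by ring
    _ = 1 := this

end General

theorem w7_aeval_mem (Fb : IntermediateField k (LaurentSeries k)) {t : LaurentSeries k} (ht : t ∈ Fb)
    (p : k[X]) : aeval t p ∈ Fb := by
  induction p using Polynomial.induction_on' with
  | add p q hp hq => rw [map_add]; exact Fb.add_mem hp hq
  | monomial n a => rw [aeval_monomial]; exact Fb.mul_mem (Fb.algebraMap_mem a) (pow_mem ht n)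

theorem w7_ne_zero_of_order {t : LaurentSeries k} (hto : t.order = -1) : t ≠ 0 := by
  rintro rfl
  simp at hto

theorem isTData_haupt (Fb : IntermediateField k (LaurentSeries k)) (r : ℕ) (hr : 1 ≤ r) (hr5 : r ≤ 4)
    (c₀ : k) (hc₀ : c₀ ≠ 0) (Nt : k[X]) (hNm : Nt.Monic) (hNd : Nt.natDegree = r + 1)
    (hN0 : Nt.eval 0 ≠ 0)
    (j D g f yj t : LaurentSeries k) (hj : j ∈ Fb) (hjo : j.order = -1) (hD : D ≠ 0)
    (ht : t ∈ Fb) (hto : t.order = -1) (hres : ∀ m : ℕ, (t ^ m * CT.theta t).coeff 0 = 0)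
    (hJ : j * t ^ r = aeval t Nt)
    (hT : CT.theta t ^ 6 = t ^ (6 - r) * (t + HahnSeries.C c₀) ^ (r + 1) * D)
    (hyj : yj ∈ Fb) (hyjf : yj * CT.theta j = f) (hg : g = f ^ 6 * D⁻¹)
    (hG1 : IsInt k j g) (N : ℕ) (hN : 0 < N) (hG2 : IsInt k j⁻¹ (g ^ N * j⁻¹ ^ (N - 1))) :
    IsTData Fb f t := by
  have ht0 : t ≠ 0 := w7_ne_zero_of_order hto
  have hj0 : j ≠ 0 := w7_ne_zero_of_order hjo
  have hN0' : Nt.coeff 0 ≠ 0 := by rwa [coeff_zero_eq_eval_zero]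
  have hC : HahnSeries.C c₀ = algebraMap k (LaurentSeries k) c₀ := (CT.theta_algebraMap_eq_C c₀).symm
  rw [hC] at hT
  obtain ⟨c, hc⟩ : ∃ c : LaurentSeries k, c = algebraMap k (LaurentSeries k) c₀ := ⟨_, rfl⟩
  rw [← hc] at hT
  obtain ⟨a, ha⟩ : ∃ a, r * N = a + 1 := ⟨r * N - 1, by
    have : 0 < r * N := Nat.mul_pos hr hN
    omega⟩
  obtain ⟨b, hb⟩ : ∃ b, (5 - r) * N = b + 1 := ⟨(5 - r) * N - 1, by
    have : 0 < (5 - r) * N := Nat.mul_pos (by omega) hN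
    omega⟩
  have e1 : (6 - r) * N + (a + 1) = 6 * N := by
    rw [← ha, ← Nat.add_mul]
    congr 1
    omega
  have e2 : (r + 1) * N + (b + 1) = 6 * N := by
    rw [← hb, ← Nat.add_mul]
    congr 1
    omega
  -- the function `y`
  obtain ⟨y, hy⟩ : ∃ y : LaurentSeries k, y =
    yj * (aeval t (derivative Nt) - (r : LaurentSeries k) * j * t ^ (r - 1)) * (t ^ r)⁻¹ := ⟨_, rfl⟩
  have hyFb : y ∈ Fb := hy ▸
    Fb.mul_mem (Fb.mul_mem hyj (Fb.sub_mem (w7_aeval_mem Fb ht _)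
      (Fb.mul_mem (Fb.mul_mem (natCast_mem Fb r) hj) (pow_mem ht _)))) (Fb.inv_mem (pow_mem ht _))
  have hθ : CT.theta j * t ^ r =
      (aeval t (derivative Nt) - (r : LaurentSeries k) * j * t ^ (r - 1)) * CT.theta t := by
    have h := congrArg CT.theta hJ
    rw [CT.theta_mul, CT.theta_pow_pred, CT.theta_aeval] at h
    rw [sub_mul, ← h]
    ring
  have hyθ : y * CT.theta t = f := by
    rw [hy, mul_assoc, mul_comm (t ^ r)⁻¹, ← mul_assoc, mul_assoc yj, ← hθ, ← mul_assoc, hyjf, mul_assoc,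
      mul_inv_cancel₀ (pow_ne_zero _ ht0), mul_one]
  have hy6 : y ^ 6 * (t ^ (6 - r) * (t + c) ^ (r + 1)) = g := by
    rw [hg, ← hyθ, mul_pow, hT]
    field_simp
  have hgN : g ^ N = y ^ (6 * N) * t ^ ((6 - r) * N) * (t + c) ^ ((r + 1) * N) := by
    rw [← hy6, mul_pow, mul_pow, ← pow_mul, ← pow_mul, ← pow_mul, mul_assoc]
  have hW : aeval t (X * (X + C c₀) : k[X]) = t * (t + c) := by
    simp [hc]
  refine ⟨ht, hto, hres, X * (X + C c₀), y, g ^ N * t ^ a * (t + c) ^ b, 6 * N, 6 * N,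
    w7_squarefree c₀ hc₀, hyFb, hyθ, by omega, ?_, ?_, by omega, ?_⟩
  · rw [hW, hgN, mul_pow, mul_pow]
    have h1 : t ^ (6 * N) = t ^ ((6 - r) * N) * (t ^ a * t) := by rw [← e1, pow_add, pow_succ]
    have h2 : (t + c) ^ (6 * N) = (t + c) ^ ((r + 1) * N) * ((t + c) ^ b * (t + c)) := by
      rw [← e2, pow_add, pow_succ]
    rw [h1, h2]
    ring
  · intro O hO htO
    refine O.mul_mem _ _ (w7_fin O hO r a N hr hN ha Nt hN0' j g t ht0 hj0 hJ hG1 hG2 htO) (O.pow_mem ?_ _)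
    exact O.add_mem _ _ htO (hc ▸ hO c₀)
  · intro O hO htO
    have hu : t⁻¹ ∈ O := (O.mem_or_inv_mem t).resolve_left htO
    have hu' : (t⁻¹)⁻¹ ∉ O := by rwa [inv_inv]
    have h1 := w7_inf O hO r N Nt hNm hNd j g t ht0 hJ hG2 htO
    have h2 : (aeval t⁻¹ (C c₀ * X + 1 : k[X]))⁻¹ ∈ O :=
      w7_inv_aeval_mem O hO _ hu hu' _ (by simp)
    have h3 : aeval t⁻¹ (C c₀ * X + 1 : k[X]) = c * t⁻¹ + 1 := by simp [hc]
    rw [h3] at h2
    have h4 : t + c = t * (c * t⁻¹ + 1) := by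
      rw [mul_add, mul_one, mul_comm c, ← mul_assoc, mul_inv_cancel₀ ht0, one_mul, add_comm]
    have h5 : c * t⁻¹ + 1 ≠ 0 := by
      intro h0
      rw [h0, mul_zero] at h4
      -- then `t = -c ∈ O`
      exact htO ((eq_neg_of_add_eq_zero_left h4) ▸ O.neg_mem _ (hc ▸ hO c₀))
    have e3 : (6 - r) * N + (r + 1) * N = (6 * N + 1) + (N - 1) := by
      rw [← Nat.add_mul, show 6 - r + (r + 1) = 7 by omega]
      omega
    have key : y ^ (6 * N) * t ^ (6 * N + 1) =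
        (g ^ N * t⁻¹ ^ (N - 1)) * (c * t⁻¹ + 1)⁻¹ ^ ((r + 1) * N) := by
      rw [hgN, h4, mul_pow t]
      have h6 : (c * t⁻¹ + 1) ^ ((r + 1) * N) * (c * t⁻¹ + 1)⁻¹ ^ ((r + 1) * N) = 1 := by
        rw [← mul_pow, mul_inv_cancel₀ h5, one_pow]
      have h7 : t ^ (N - 1) * t⁻¹ ^ (N - 1) = 1 := by
        rw [← mul_pow, mul_inv_cancel₀ ht0, one_pow]
      calc y ^ (6 * N) * t ^ (6 * N + 1)
          = y ^ (6 * N) * (t ^ (6 * N + 1) * (t ^ (N - 1) * t⁻¹ ^ (N - 1))) *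
            ((c * t⁻¹ + 1) ^ ((r + 1) * N) * (c * t⁻¹ + 1)⁻¹ ^ ((r + 1) * N)) := by
            rw [h6, h7, mul_one, mul_one]
        _ = y ^ (6 * N) * (t ^ ((6 * N + 1) + (N - 1)) * t⁻¹ ^ (N - 1)) *
            ((c * t⁻¹ + 1) ^ ((r + 1) * N) * (c * t⁻¹ + 1)⁻¹ ^ ((r + 1) * N)) := by
            rw [pow_add t]; ring
        _ = _ := by
            rw [← e3, pow_add t]; ring
    rw [key]
    exact O.mul_mem _ _ h1 (O.pow_mem h2 _)

end Fermat.Agent.GAL.CTV
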