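import Fermat.Agent.GAL.CTV.TDataJ
import Fermat.Agent.GAL.CTV.TDataH
import Fermat.Agent.GAL.CTV.Small

/-!
# GAL / CTV / W9 : existence of `t`-data (core: the facts ID and Z are hypotheses)
-/

set_option autoImplicit false

open Polynomial ModularCurve AlgebraicCurve

noncomputable section

namespace Fermat.Agent.GAL.CTV

open Fermat.Agent.GAL.KL Fermat.Agent.GAL.KLC Fermat.Agent.GR

theorem w9_cZ_C (R : Type*) [CommRing R] (c : ℤ) :
    cZ R (HahnSeries.C c) = HahnSeries.C (c : R) := by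
  ext n
  simp only [coeffMap_coeff, HahnSeries.C_apply, HahnSeries.coeff_single]
  split_ifs <;> simp

theorem w9_natCast_ne_zero {k : Type*} [Field k] {ℓ : ℕ} [CharP k ℓ] (n : ℕ)
    (h : ¬ ℓ ∣ n) : (n : k) ≠ 0 := by
  rw [Ne, CharP.cast_eq_zero_iff k ℓ]
  exact h

theorem exists_tdata_core (M ℓ : ℕ) [NeZero M] [Fact ℓ.Prime] (hM : AdmLevel M) (hℓM : ¬ ℓ ∣ M)
    (A : ValuationSubring Qb) (hA : A.LiesOverPrime ℓ) (fZ : PowerSeries ℤ)
    (h1 : jZ * DZ = E4Z ^ 3) (h2 : (jZ - 1728) * DZ = E6Z ^ 2)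
    (h3 : CT.theta jZ * DZ = -(E4Z ^ 2 * E6Z))
    (hH2 : HauptFacts 2 2 64 ((X + 256) ^ 3))
    (hH3 : HauptFacts 3 3 27 ((X + 27) * (X + 243) ^ 3))
    (hz0 : cZ Qb (z0Z fZ) ∈ FL Qb M)
    (hG1 : IsInt (kA A) (cZ (kA A) jZ) (cZ (kA A) (gZ fZ)))
    (hG2 : ∃ N : ℕ, 0 < N ∧
      IsInt (kA A) (cZ (kA A) jZ)⁻¹ (cZ (kA A) (gZ fZ) ^ N * (cZ (kA A) jZ)⁻¹ ^ (N - 1))) :
    ∃ t, IsTData (Fbar (isRed A M)) (psR (kA A) fZ) t := by
  have hℓ : ℓ.Prime := Fact.out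
  have : CharP (kA A) ℓ := GR.charP_residueField hℓ hA
  obtain ⟨N, hN, hG2⟩ := hG2
  have hj : cZ (kA A) jZ ∈ Fbar (isRed A M) := cZ_mem_Fbar A M jZ (jZ_mem M)
  have hjo : (cZ (kA A) jZ).order = -1 := by
    have e : cZ (kA A) jZ = jqModC (kA A) := map_jqModC (K := ℤ) (Int.castRingHom (kA A))
    rw [e]
    exact S28.order_jqModC (kA A)
  have hD : cZ (kA A) DZ ≠ 0 := by
    have e : cZ (kA A) DZ = S28.DqC (kA A) := S28.coeffMap_DqC _
    rw [e]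
    exact S28.DqC_ne_zero (kA A)
  have hjD : cZ (kA A) jZ * cZ (kA A) DZ = cZ (kA A) E4Z ^ 3 := by
    rw [← map_mul, h1, map_pow]
  have h1728 : (cZ (kA A) jZ - 1728) * cZ (kA A) DZ = cZ (kA A) E6Z ^ 2 := by
    have := congrArg (cZ (kA A)) h2
    rwa [map_mul, map_sub, map_pow, map_ofNat] at this
  have hθ : CT.theta (cZ (kA A) jZ) * cZ (kA A) DZ
      = -(cZ (kA A) E4Z ^ 2 * cZ (kA A) E6Z) := by
    have := congrArg (cZ (kA A)) h3
    rwa [map_mul, map_neg, map_mul, map_pow, cZ_theta] at this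
  have hz0' : psR (kA A) fZ * cZ (kA A) E4Z * cZ (kA A) E6Z * (cZ (kA A) DZ)⁻¹
      ∈ Fbar (isRed A M) := by
    have := cZ_mem_Fbar A M (z0Z fZ) hz0
    rwa [z0Z, map_mul, map_mul, map_mul, cZ_pZ, cZ_DZi] at this
  have hg : cZ (kA A) (gZ fZ) = psR (kA A) fZ ^ 6 * (cZ (kA A) DZ)⁻¹ := by
    rw [gZ, map_mul, map_pow, cZ_pZ, cZ_DZi]
  obtain ⟨y, hy, hyf, hy6⟩ := exists_yj (Fbar (isRed A M)) _ _ _ _ _ hj hjo hD hjD h1728 hθ hz0'
  rcases hM with h4 | h9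
  · -- `4 ∣ M`, so `ℓ ≠ 2`: the Hauptmodul `t₂`
    have h2M : 2 ∣ M := Dvd.dvd.trans (by norm_num) h4
    have hl2 : ¬ ℓ ∣ 2 := fun h => hℓM (h.trans h2M)
    obtain ⟨tZ, hu, hJ, hT, hmem⟩ := hH2
    have hodd : ∀ e : ℕ, ((2 ^ e : ℕ) : kA A) ≠ 0 := fun e =>
      w9_natCast_ne_zero _ (fun h => hl2 (hℓ.dvd_of_dvd_pow h))
    refine ⟨cZ (kA A) tZ, isTData_haupt (Fbar (isRed A M)) 2 (by norm_num) (by norm_num) (64 : kA A)
      (by exact_mod_cast hodd 6) ((X + 256) ^ 3) ?_ ?_ ?_ _ _ _ _ y _ hj hjo hD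
      (cZ_mem_Fbar A M tZ (hmem M h2M)) (order_cZ tZ (-1) hu) (res_cZ (kA A) tZ) ?_ ?_ hy hyf hg
      hG1 N hN hG2⟩
    · have e2 : (X + 256 : (kA A)[X]) = X + C 256 := by rw [map_ofNat]
      rw [e2]
      exact (monic_X_add_C _).pow 3
    · have e2 : (X + 256 : (kA A)[X]) = X + C 256 := by rw [map_ofNat]
      rw [e2, (monic_X_add_C _).natDegree_pow, natDegree_X_add_C]
    · simp only [eval_add, eval_X, eval_pow, eval_ofNat, zero_add]
      have := hodd 24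
      exact_mod_cast this
    · have := congrArg (cZ (kA A)) hJ
      simp only [map_mul, map_pow, map_add, aeval_X, map_ofNat] at this ⊢
      exact this
    · have := congrArg (cZ (kA A)) hT
      rw [map_pow, cZ_theta, map_mul, map_mul, map_pow, map_pow, map_add, w9_cZ_C] at this
      simpa using this
  · -- `9 ∣ M`, so `ℓ ≠ 3`: the Hauptmodul `t₃`
    have h3M : 3 ∣ M := Dvd.dvd.trans (by norm_num) h9
    have hl3 : ¬ ℓ ∣ 3 := fun h => hℓM (h.trans h3M)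
    obtain ⟨tZ, hu, hJ, hT, hmem⟩ := hH3
    have hodd : ∀ e : ℕ, ((3 ^ e : ℕ) : kA A) ≠ 0 := fun e =>
      w9_natCast_ne_zero _ (fun h => hl3 (hℓ.dvd_of_dvd_pow h))
    refine ⟨cZ (kA A) tZ, isTData_haupt (Fbar (isRed A M)) 3 (by norm_num) (by norm_num) (27 : kA A)
      (by exact_mod_cast hodd 3) ((X + 27) * (X + 243) ^ 3) ?_ ?_ ?_ _ _ _ _ y _ hj hjo hD
      (cZ_mem_Fbar A M tZ (hmem M h3M)) (order_cZ tZ (-1) hu) (res_cZ (kA A) tZ) ?_ ?_ hy hyf hg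
      hG1 N hN hG2⟩
    · have e1 : (X + 27 : (kA A)[X]) = X + C 27 := by rw [map_ofNat]
      have e2 : (X + 243 : (kA A)[X]) = X + C 243 := by rw [map_ofNat]
      rw [e1, e2]
      exact (monic_X_add_C _).mul ((monic_X_add_C _).pow 3)
    · have e1 : (X + 27 : (kA A)[X]) = X + C 27 := by rw [map_ofNat]
      have e2 : (X + 243 : (kA A)[X]) = X + C 243 := by rw [map_ofNat]
      rw [e1, e2, ((monic_X_add_C _).natDegree_mul ((monic_X_add_C _).pow 3)),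
        (monic_X_add_C _).natDegree_pow, natDegree_X_add_C, natDegree_X_add_C]
    · simp only [eval_mul, eval_add, eval_X, eval_pow, eval_ofNat, zero_add]
      have := hodd 18
      exact_mod_cast this
    · have := congrArg (cZ (kA A)) hJ
      simp only [map_mul, map_pow, map_add, aeval_X, map_ofNat] at this ⊢
      exact this
    · have := congrArg (cZ (kA A)) hT
      rw [map_pow, cZ_theta, map_mul, map_mul, map_pow, map_pow, map_add, w9_cZ_C] at this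
      simpa using this

end Fermat.Agent.GAL.CTV
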