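import Fermat.Agent.GAL.CTV.WDefs
import Fermat.Agent.GAL.CT.Q.Haupt
import Fermat.Agent.GAL.KLC.XMem

/-!
# GAL / CTV : `HauptFacts` for `t₂`, `t₃`
-/

set_option autoImplicit false

open Polynomial ModularCurve

noncomputable section

namespace Fermat.Agent.GAL.CTV

open Fermat.Agent.GAL.KLC Fermat.Agent.GAL.CT

theorem haupt_full_mono {b M : ℕ} (h : b ∣ M) :
    modularFunctionFieldFull b ≤ modularFunctionFieldFull M := by
  apply IntermediateField.adjoin.mono
  rintro x ⟨d, hd0, hd, rfl⟩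
  exact ⟨d, hd0, hd.trans h, rfl⟩

theorem haupt_mem_FL {b M : ℕ} (h : b ∣ M) {y : LaurentSeries ℤ}
    (hy : coeffMap (Int.castRingHom ℚ) y ∈ modularFunctionFieldFull b) : cZ Qb y ∈ FL Qb M := by
  show coeffMap (Int.castRingHom Qb) y ∈ FL Qb M
  rw [xMem_coeffMap_int]
  exact coeffEmb_mem_laurentBaseChange _ (haupt_full_mono h hy)

theorem haupt_uU (d : ℕ) [NeZero d] :
    ((uU d : (LaurentSeries ℤ)ˣ) : LaurentSeries ℤ) = qExpand ℤ d CT.DZ * S28.DqInvC ℤ := by
  have h1 : ((uU d : (LaurentSeries ℤ)ˣ) : LaurentSeries ℤ)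
      = S28.qE ℤ d (S28.DqC ℤ) * S28.DqInvC ℤ := rfl
  rw [h1, S28.qE_eq]

theorem haupt_t2_mul_uU : t2Z * ((uU 2 : (LaurentSeries ℤ)ˣ) : LaurentSeries ℤ) = 1 := by
  rw [haupt_uU, t2_D2, ← S28.DqC_mul_DqInvC ℤ, show S28.DqC ℤ = CT.DZ from rfl, t2_D]
  ring

theorem haupt_t3_sq_mul_uU : t3Z ^ 2 * ((uU 3 : (LaurentSeries ℤ)ˣ) : LaurentSeries ℤ) = 1 := by
  have h1 : t3Z ^ 2 * qExpand ℤ 3 CT.DZ = CT.DZ := by
    apply mul_left_cancel₀ t3_add_ne_zero
    linear_combination t3Z ^ 2 * t3_D3 - t3_D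
  rw [haupt_uU, ← mul_assoc, h1]
  exact S28.DqC_mul_DqInvC ℤ

theorem haupt_t2_mem : coeffMap (Int.castRingHom ℚ) t2Z ∈ modularFunctionFieldFull 2 := by
  have h1 := congrArg (coeffMap (Int.castRingHom ℚ)) haupt_t2_mul_uU
  rw [map_mul, xMem_coeffMap_uU, map_one] at h1
  rw [eq_inv_of_mul_eq_one_left h1]
  exact inv_mem (ud_mem_full 2 2 dvd_rfl)

theorem haupt_monic_add {n : ℕ} (hn : 0 < n) {y : LaurentSeries ℤ} (h : XSeries_Monic (-(n : ℤ)) y)
    (c : ℤ) : XSeries_Monic (-(n : ℤ)) (y + (c : LaurentSeries ℤ)) := by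
  obtain ⟨u, hu, rfl⟩ := h
  refine ⟨u + PowerSeries.C c * PowerSeries.X ^ n, ?_, ?_⟩
  · rw [map_add, map_mul, map_pow, PowerSeries.constantCoeff_X, zero_pow hn.ne', mul_zero, add_zero, hu]
  · rw [map_add, map_mul, map_pow, HahnSeries.ofPowerSeries_X, HahnSeries.single_pow, mul_add]
    congr 1
    have h5 : (HahnSeries.ofPowerSeries ℤ ℤ) (PowerSeries.C c) = (c : LaurentSeries ℤ) := by
      rw [show (PowerSeries.C c : PowerSeries ℤ) = ((c : ℤ) : PowerSeries ℤ) from (map_intCast _ c),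
        map_intCast]
    rw [h5, mul_left_comm, HahnSeries.single_mul_single]
    simp

theorem haupt_num_ne_zero :
    (t3Z ^ 2) ^ 2 + 196830 * t3Z ^ 2 + 387420489 ≠ (0 : LaurentSeries ℤ) := by
  intro h
  have h1 : XSeries_Monic (-((2 : ℕ) : ℤ)) (t3Z ^ 2) := by
    have := monic_t3Z.pow 2
    simpa using this
  have h2 := haupt_monic_add (by norm_num) h1 196830
  have h3 := (h1.mul h2).order
  have h4 : t3Z ^ 2 * (t3Z ^ 2 + ((196830 : ℤ) : LaurentSeries ℤ)) =
      HahnSeries.C (-387420489 : ℤ) := by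
    rw [map_neg, map_ofNat]
    push_cast
    linear_combination h
  rw [h4, HahnSeries.order_C] at h3
  norm_num at h3

theorem haupt_t3_lin :
    t3Z * ((756 - CT.jZ) * t3Z ^ 2 + 19131876) = -((t3Z ^ 2) ^ 2 + 196830 * t3Z ^ 2 + 387420489) := by
  linear_combination (-1 : LaurentSeries ℤ) * j_t3

theorem haupt_t3_mem : coeffMap (Int.castRingHom ℚ) t3Z ∈ modularFunctionFieldFull 3 := by
  set c := coeffMap (Int.castRingHom ℚ) with hc
  have hinj : Function.Injective c := by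
    intro x y hxy
    ext k
    have := congrArg (fun z => HahnSeries.coeff z k) hxy
    exact Int.cast_injective (α := ℚ) this
  have h1 := congrArg c haupt_t3_sq_mul_uU
  rw [map_mul, xMem_coeffMap_uU, map_one] at h1
  have hs : c (t3Z ^ 2) ∈ modularFunctionFieldFull 3 := by
    rw [eq_inv_of_mul_eq_one_left h1]
    exact inv_mem (ud_mem_full 3 3 dvd_rfl)
  have hj : c CT.jZ ∈ modularFunctionFieldFull 3 := by
    rw [hc, coeffMap_jqModC]
    exact xMem_jq_mem_full 3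
  have hn : ∀ n : ℕ, (n : LaurentSeries ℚ) ∈ modularFunctionFieldFull 3 := fun n => natCast_mem _ n
  have hden : c ((756 - CT.jZ) * t3Z ^ 2 + 19131876) ∈ modularFunctionFieldFull 3 := by
    rw [map_add, map_mul, map_sub, map_ofNat, map_ofNat]
    exact add_mem (mul_mem (sub_mem (by exact_mod_cast hn 756) hj) hs) (by exact_mod_cast hn 19131876)
  have hnum : c ((t3Z ^ 2) ^ 2 + 196830 * t3Z ^ 2 + 387420489) ∈ modularFunctionFieldFull 3 := by
    rw [map_add, map_add, map_mul, map_pow, map_ofNat, map_ofNat]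
    exact add_mem (add_mem (pow_mem hs 2) (mul_mem (by exact_mod_cast hn 196830) hs))
      (by exact_mod_cast hn 387420489)
  have h2 := congrArg c haupt_t3_lin
  rw [map_mul, map_neg] at h2
  have hnum0 : c ((t3Z ^ 2) ^ 2 + 196830 * t3Z ^ 2 + 387420489) ≠ 0 := by
    rw [Ne, map_eq_zero_iff c hinj]
    exact haupt_num_ne_zero
  have hden0 : c ((756 - CT.jZ) * t3Z ^ 2 + 19131876) ≠ 0 := by
    intro h
    rw [h, mul_zero] at h2
    exact hnum0 (neg_eq_zero.mp h2.symm)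
  rw [eq_div_of_mul_eq hden0 h2]
  exact div_mem (neg_mem hnum) hden

/-- **Hauptmodul facts at level 2.** -/
theorem haupt2 : HauptFacts 2 2 64 ((X + 256) ^ 3) := by
  refine ⟨t2Z, monic_t2Z, ?_, ?_, fun M hM => haupt_mem_FL hM haupt_t2_mem⟩
  · rw [map_pow, map_add, aeval_X, map_ofNat]
    exact j_t2
  · rw [map_ofNat]
    exact theta_t2_pow_six

/-- **Hauptmodul facts at level 3.** -/
theorem haupt3 : HauptFacts 3 3 27 ((X + 27) * (X + 243) ^ 3) := by
  refine ⟨t3Z, monic_t3Z, ?_, ?_, fun M hM => haupt_mem_FL hM haupt_t3_mem⟩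
  · rw [map_mul, map_pow, map_add, map_add, aeval_X, map_ofNat, map_ofNat]
    exact j_t3
  · rw [map_ofNat]
    exact theta_t3_pow_six

end Fermat.Agent.GAL.CTV
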