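import Fermat.Agent.GAL.CTV.WDefs
import Fermat.Agent.GAL.KLC.XMem

/-!
# GAL / CTV : the Hauptmoduln `t₂`, `t₃` lie in the function fields of `X₀(M)`, `2 ∣ M` resp. `3 ∣ M`

Stated against the identities (`t₂ Δ(q²) = Δ`; `t₃² Δ(q³) = Δ`, `j t₃³ = (t₃+27)(t₃+243)³`) as hypotheses.
-/

set_option autoImplicit false

open ModularCurve Polynomial

noncomputable section

namespace Fermat.Agent.GAL.CTV

open Fermat.Agent.GAL.KLC

theorem hauptMem_full_le {b M : ℕ} (h : b ∣ M) :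
    modularFunctionFieldFull b ≤ modularFunctionFieldFull M := by
  unfold modularFunctionFieldFull
  apply IntermediateField.adjoin.mono
  rintro x ⟨d, hne, hdvd, rfl⟩
  exact ⟨d, hne, hdvd.trans h, rfl⟩

theorem hauptMem_cZ_mem {b M : ℕ} (h : b ∣ M) {y : LaurentSeries ℤ}
    (hy : coeffMap (Int.castRingHom ℚ) y ∈ modularFunctionFieldFull b) : cZ Qb y ∈ FL Qb M := by
  show coeffMap (Int.castRingHom Qb) y ∈ _
  rw [xMem_coeffMap_int]
  exact coeffEmb_mem_laurentBaseChange _ (hauptMem_full_le h hy)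

theorem hauptMem_DqC_ne_zero : S28.DqC ℚ ≠ 0 := by
  intro h
  have := S28.DqC_mul_DqInvC ℚ
  rw [h, zero_mul] at this
  exact zero_ne_one this

/-- `x Δ(q^d) = Δ` implies `x = 1/u_d`. -/
theorem hauptMem_eq_inv_ud (d : ℕ) [NeZero d] (x : LaurentSeries ℤ) (h : x * qExpand ℤ d DZ = DZ) :
    coeffMap (Int.castRingHom ℚ) x = (S28.ud d)⁻¹ := by
  have h1 := congrArg (coeffMap (Int.castRingHom ℚ)) h
  rw [map_mul, ← S28.qE_eq, S28.coeffMap_qE, S28.coeffMap_DqC] at h1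
  have hD := hauptMem_DqC_ne_zero
  have hD2 : S28.qE ℚ d (S28.DqC ℚ) ≠ 0 := (_root_.map_ne_zero _).mpr hD
  unfold S28.ud
  rw [inv_div, eq_div_iff hD2]
  exact h1

theorem haupt_mem2 (tZ : LaurentSeries ℤ) (h : tZ * qExpand ℤ 2 DZ = DZ) (M : ℕ) (hM : 2 ∣ M) :
    cZ Qb tZ ∈ FL Qb M := by
  apply hauptMem_cZ_mem hM
  rw [hauptMem_eq_inv_ud 2 tZ h]
  exact inv_mem (ud_mem_full 2 2 dvd_rfl)

theorem hauptMem_ne_zero (tZ : LaurentSeries ℤ)
    (hu : ∃ u : PowerSeries ℤ, PowerSeries.constantCoeff u = 1 ∧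
      tZ = HahnSeries.single (-1 : ℤ) 1 * HahnSeries.ofPowerSeries ℤ ℤ u) :
    tZ ^ 4 + 196830 * tZ ^ 2 + 387420489 ≠ 0 := by
  obtain ⟨u, hu1, rfl⟩ := hu
  intro h0
  have hq : (HahnSeries.single (1 : ℤ) (1 : ℤ)) * HahnSeries.single (-1 : ℤ) 1 = 1 := by
    rw [HahnSeries.single_mul_single]; simp
  have hX : HahnSeries.ofPowerSeries ℤ ℤ PowerSeries.X = HahnSeries.single (1 : ℤ) (1 : ℤ) :=
    HahnSeries.ofPowerSeries_X
  have h1 : HahnSeries.ofPowerSeries ℤ ℤ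
      (u ^ 4 + 196830 * PowerSeries.X ^ 2 * u ^ 2 + 387420489 * PowerSeries.X ^ 4) = 0 := by
    simp only [map_add, map_mul, map_pow, map_ofNat, hX]
    set q := HahnSeries.single (1 : ℤ) (1 : ℤ)
    set q' := HahnSeries.single (-1 : ℤ) (1 : ℤ)
    set U := HahnSeries.ofPowerSeries ℤ ℤ u
    have : U ^ 4 + 196830 * q ^ 2 * U ^ 2 + 387420489 * q ^ 4
        = q ^ 4 * ((q' * U) ^ 4 + 196830 * (q' * U) ^ 2 + 387420489)
          + (1 - (q * q') ^ 4) * U ^ 4 + 196830 * q ^ 2 * (1 - (q * q') ^ 2) * U ^ 2 := by ring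
    rw [this, h0, hq]
    ring
  have h2 := HahnSeries.ofPowerSeries_injective (h1.trans (map_zero _).symm)
  have h3 := congrArg PowerSeries.constantCoeff h2
  simp [hu1] at h3

theorem haupt_mem3 (tZ : LaurentSeries ℤ)
    (hu : ∃ u : PowerSeries ℤ, PowerSeries.constantCoeff u = 1 ∧
      tZ = HahnSeries.single (-1 : ℤ) 1 * HahnSeries.ofPowerSeries ℤ ℤ u)
    (h : tZ ^ 2 * qExpand ℤ 3 DZ = DZ)
    (hJ : jZ * tZ ^ 3 = aeval tZ ((X + 27) * (X + 243) ^ 3 : ℤ[X])) (M : ℕ) (hM : 3 ∣ M) :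
    cZ Qb tZ ∈ FL Qb M := by
  apply hauptMem_cZ_mem hM
  have hs := hauptMem_eq_inv_ud 3 (tZ ^ 2) h
  set c := coeffMap (Int.castRingHom ℚ) with hc
  set t := c tZ with ht
  have hsm : t ^ 2 ∈ modularFunctionFieldFull 3 := by
    rw [ht, ← map_pow, hs]
    exact inv_mem (ud_mem_full 3 3 dvd_rfl)
  have hjm : jq ∈ modularFunctionFieldFull 3 := xMem_jq_mem_full 3
  have hJ' : jq * t ^ 3 = (t + 27) * (t + 243) ^ 3 := by
    have := congrArg c hJ
    simp only [map_mul, map_add, map_pow, aeval_X, map_ofNat] at this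
    rw [hc, coeffMap_jqModC] at this
    exact this
  have hne : t ^ 4 + 196830 * t ^ 2 + 387420489 ≠ 0 := by
    intro h0
    apply hauptMem_ne_zero tZ hu
    apply GR.coeffMap_injective (f := Int.castRingHom ℚ) Int.cast_injective
    simp only [map_add, map_mul, map_pow, map_ofNat, map_zero]
    exact h0
  have hrel : t * ((jq - 756) * t ^ 2 - 19131876) = t ^ 4 + 196830 * t ^ 2 + 387420489 := by
    linear_combination hJ'
  have hD : (jq - 756) * t ^ 2 - 19131876 ≠ 0 := by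
    intro h0
    rw [h0, mul_zero] at hrel
    exact hne hrel.symm
  have : t = ((t ^ 2) ^ 2 + 196830 * t ^ 2 + 387420489) / ((jq - 756) * t ^ 2 - 19131876) := by
    rw [eq_div_iff hD, hrel]
    ring
  rw [this]
  have hnat : ∀ n : ℕ, (n : LaurentSeries ℚ) ∈ modularFunctionFieldFull 3 := fun n => natCast_mem _ n
  refine div_mem (add_mem (add_mem (pow_mem hsm 2) (mul_mem ?_ hsm)) ?_)
    (sub_mem (mul_mem (sub_mem hjm ?_) hsm) ?_)
  · exact_mod_cast hnat 196830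
  · exact_mod_cast hnat 387420489
  · exact_mod_cast hnat 756
  · exact_mod_cast hnat 19131876

end Fermat.Agent.GAL.CTV
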