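import Fermat.Agent.GAL.CTV.Series
import Fermat.Agent.GAL.CTV.Finite
import Fermat.Agent.GAL.CTV.SpanBar
import Fermat.Agent.GAL.CTV.UniquePole

/-!
# GAL / CTV : W5, the constant term lemma (b2) from `t`-data (assembly of W2, W3, W4, A8)
-/

set_option autoImplicit false

open Polynomial ModularCurve AlgebraicCurve

noncomputable section

namespace Fermat.Agent.GAL.CTV

open Fermat.Agent.GAL.KL Fermat.Agent.GAL.KLC Fermat.Agent.GR

variable {k : Type*} [Field k]

theorem w5_order_inv {s : LaurentSeries k} (hs : s ≠ 0) : (s⁻¹).order = -s.order := by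
  have h := HahnSeries.order_mul hs (inv_ne_zero hs)
  rw [mul_inv_cancel₀ hs, HahnSeries.order_one] at h
  omega

/-- integrality descends to an intermediate field. -/
theorem w5_isInt_subtype (Fb : IntermediateField k (LaurentSeries k)) (x z : Fb)
    (h : IsInt k (x : LaurentSeries k) (z : LaurentSeries k)) : IsInt k x z := by
  obtain ⟨p, hp, hz⟩ := h
  refine ⟨p, hp, ?_⟩
  apply Subtype.ext
  have h1 : ((eval₂ ((aeval x : k[X] →ₐ[k] Fb) : k[X] →+* Fb) z p : Fb) : LaurentSeries k) =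
      eval₂ ((aeval (x : LaurentSeries k) : k[X] →ₐ[k] LaurentSeries k) :
        k[X] →+* LaurentSeries k) (z : LaurentSeries k) p := by
    have h2 := Polynomial.hom_eval₂ p ((aeval x : k[X] →ₐ[k] Fb) : k[X] →+* Fb)
      (Fb.val : Fb →+* LaurentSeries k) z
    have h3 : ((Fb.val : Fb →+* LaurentSeries k).comp
        ((aeval x : k[X] →ₐ[k] Fb) : k[X] →+* Fb)) =
        ((aeval (x : LaurentSeries k) : k[X] →ₐ[k] LaurentSeries k) :
          k[X] →+* LaurentSeries k) := by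
      ext a
      · simp
      · simp
    rw [h3] at h2
    exact h2
  rw [h1, hz]
  rfl

theorem w5_transcendental_subtype (Fb : IntermediateField k (LaurentSeries k)) (t : Fb)
    (h : Transcendental k (t : LaurentSeries k)) : Transcendental k t := by
  intro halg
  exact h (IsAlgebraic.algHom Fb.val halg)

variable {K F Γ₀ : Type*} [Field K] [Field F] [Algebra K F]
  [LinearOrderedCommGroupWithZero Γ₀] {v : Valuation F Γ₀} {ρ : v.integer →+* LaurentSeries k}

theorem ct_of_tdata [PerfectField k] (hρ : IsRed K v ρ) {x x' : F} (hx : x ∈ v.integer)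
    (hx' : x' ∈ v.integer) {m : ℕ} (hm : 0 < m) (hxo : (ρ ⟨x, hx⟩).order = -(m : ℤ))
    (hxo' : (ρ ⟨x', hx'⟩).order = -(m : ℤ) + 1)
    (hSp : Spans K x (fun i : Fin m => x' ^ (i : ℕ)))
    {f t : LaurentSeries k} (hT : IsTData (Fbar hρ) f t) (z : v.integer)
    (hint : IsInt k (ρ ⟨x, hx⟩) (ρ z)) : (ρ z * f).coeff 0 = 0 := by
  set xb : Fbar hρ := ⟨ρ ⟨x, hx⟩, rho_mem_Fbar hρ _⟩ with hxb
  set xb' : Fbar hρ := ⟨ρ ⟨x', hx'⟩, rho_mem_Fbar hρ _⟩ with hxb'
  have hspan := hspan_Fbar hρ hx hx' hm hxo hxo' hSp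
  have hx0 : ρ ⟨x, hx⟩ ≠ 0 := by
    intro h0
    rw [h0, HahnSeries.order_zero] at hxo
    omega
  have hxo1 : ((Fbar hρ).val xb).order = -(m : ℤ) := hxo
  -- a uniformiser `u` with the spanning property
  obtain ⟨ub, huo, hspan'⟩ : ∃ ub : Fbar hρ, ((Fbar hρ).val ub).order = 1 ∧
      ∀ z : Fbar hρ, ∃ (d : k[X]) (p : Fin m → k[X]), d ≠ 0 ∧
        aeval xb d * z = ∑ i, aeval xb (p i) * ub ^ (i : ℕ) := by
    by_cases hx0' : ρ ⟨x', hx'⟩ = 0
    · -- then `m = 1` and only `u ^ 0` occurs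
      have hm1 : m = 1 := by
        rw [hx0', HahnSeries.order_zero] at hxo'
        omega
      subst hm1
      refine ⟨xb⁻¹, ?_, fun z => ?_⟩
      · have h1 : (Fbar hρ).val xb⁻¹ = (ρ ⟨x, hx⟩)⁻¹ := rfl
        rw [h1, w5_order_inv hx0, hxo]
        simp
      · obtain ⟨d, p, hd, h⟩ := hspan z
        refine ⟨d, p, hd, ?_⟩
        rw [Fin.sum_univ_one] at h ⊢
        simpa using h
    · refine ⟨xb' * xb⁻¹, ?_, hspan⟩
      have h1 : (Fbar hρ).val (xb' * xb⁻¹) = ρ ⟨x', hx'⟩ * (ρ ⟨x, hx⟩)⁻¹ := rfl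
      rw [h1, HahnSeries.order_mul hx0' (inv_ne_zero hx0), w5_order_inv hx0, hxo, hxo']
      omega
  have hfd : FiniteDimensional (KT k (⟨t, hT.t_mem⟩ : Fbar hρ)) (Fbar hρ) := by
    refine finiteDimensional_KT xb ub ⟨t, hT.t_mem⟩ m hspan' ?_ ?_
    · apply w5_transcendental_subtype
      exact transcendental_of_order_neg _ (by rw [hxo]; omega)
    · apply w5_transcendental_subtype
      exact transcendental_of_order_neg t (by rw [hT.order_t]; omega)
  have hξ : IsInt k xb (⟨ρ z, rho_mem_Fbar hρ z⟩ : Fbar hρ) := w5_isInt_subtype _ _ _ hint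
  exact ct_series (Fbar hρ) hT hfd ⟨ρ z, rho_mem_Fbar hρ z⟩
    (fun O hO hξO w hw => hxi_of_isInt (Fbar hρ).val xb ub m hm hxo1 huo hspan' _ hξ O hO hξO w hw)

end Fermat.Agent.GAL.CTV
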