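import Fermat.Agent.GAL.CTV.Defs
import Fermat.Agent.GAL.KLC.GaussON

/-!
# GAL / CTV : CT-A7.  A subfield of `k((q))` algebraic over `k(t)`, `ord_q t = -1`, `k` perfect, is
separable over `k(t)`.
-/

set_option autoImplicit false

namespace Fermat.Agent.GAL.CTV

open Polynomial

section Series

variable {k : Type*} [Field k]

/-- every polynomial over a perfect field of characteristic `p` is `∑_{r<p} X^r B_r^p`. -/
theorem a7_exists_decomp (p : ℕ) [Fact p.Prime] [CharP k p] [PerfectField k] (P : k[X]) :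
    ∃ B : ℕ → k[X], P = ∑ r ∈ Finset.range p, X ^ r * B r ^ p := by
  classical
  have hp : 0 < p := (Fact.out : p.Prime).pos
  induction P using Polynomial.induction_on' with
  | add P Q hP hQ =>
    obtain ⟨B, hB⟩ := hP
    obtain ⟨B', hB'⟩ := hQ
    refine ⟨fun r => B r + B' r, ?_⟩
    conv_lhs => rw [hB, hB']
    rw [← Finset.sum_add_distrib]
    refine Finset.sum_congr rfl fun r _ => ?_
    rw [add_pow_char, mul_add]
  | monomial n a =>
    obtain ⟨b, hb⟩ := surjective_frobenius k p a
    refine ⟨fun r => if r = n % p then monomial (n / p) b else 0, ?_⟩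
    rw [Finset.sum_eq_single (n % p)]
    · simp only [if_true]
      rw [monomial_pow, X_pow_mul_monomial]
      congr 1
      · have := Nat.div_add_mod n p
        rw [mul_comm] at this
        rw [this]
      · exact hb.symm
    · intro r _ hr
      simp only [if_neg hr]
      rw [zero_pow hp.ne', mul_zero]
    · intro h
      exact absurd (Finset.mem_range.mpr (Nat.mod_lt n hp)) h

/-- `1, τ, …, τ^(p-1)` are linearly independent over the `p`-th powers. -/
theorem a7_eq_zero_of_sum (p : ℕ) {τ : LaurentSeries k} (hτ : τ.order = -1)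
    (a : ℕ → LaurentSeries k) (h : ∑ r ∈ Finset.range p, τ ^ r * a r ^ p = 0) :
    ∀ r ∈ Finset.range p, a r = 0 := by
  by_contra hcon
  push Not at hcon
  obtain ⟨r₀, hr₀, har₀⟩ := hcon
  have hτ0 : τ ≠ 0 := by
    rintro rfl
    simp at hτ
  have hord : ∀ r, τ ^ r * a r ^ p ≠ 0 → (τ ^ r * a r ^ p).order = -(r : ℤ) + p * (a r).order := by
    intro r hr
    rw [HahnSeries.order_mul (left_ne_zero_of_mul hr) (right_ne_zero_of_mul hr),
      HahnSeries.order_pow, HahnSeries.order_pow, hτ]
    simp
  obtain ⟨-, -, -, -, hne, -⟩ := KLC.GaussON_sum_ne_zero (Finset.range p)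
    (fun r => τ ^ r * a r ^ p)
    (by
      intro i hi j hj hi0 hj0 hij
      rw [hord i hi0, hord j hj0] at hij
      have h1 : (p : ℤ) ∣ (i : ℤ) - (j : ℤ) := ⟨(a i).order - (a j).order, by linarith⟩
      have hi' : (i : ℤ) < p := by exact_mod_cast Finset.mem_range.mp hi
      have hj' : (j : ℤ) < p := by exact_mod_cast Finset.mem_range.mp hj
      have h2 : (i : ℤ) - j = 0 := by
        apply Int.eq_zero_of_abs_lt_dvd h1
        rw [abs_lt]
        constructor <;> omega
      omega)
    ⟨r₀, hr₀, mul_ne_zero (pow_ne_zero _ hτ0) (pow_ne_zero _ har₀)⟩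
  exact hne h

end Series

variable {k F : Type*} [Field k] [Field F] [Algebra k F]

/-- `k[X] → k(t)`. -/
noncomputable def a7phi (t : F) : k[X] →+* KT k t :=
  (evT k t).codRestrict (KT k t) fun p => Subfield.subset_closure ⟨p, rfl⟩

theorem a7_coe_phi (t : F) (p : k[X]) : ((a7phi t p : KT k t) : F) = aeval t p := rfl

/-- elements of `k(t)` are fractions. -/
theorem a7_exists_frac (t : F) (c : KT k t) :
    ∃ a b : k[X], a7phi t b ≠ 0 ∧ a7phi t a = a7phi t b * c := by
  obtain ⟨y, hy, z, hz, hyz⟩ := Subfield.mem_closure_iff.mp c.2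
  have hcl : Subring.closure (Set.range (evT k t)) = (evT k t).range := by
    rw [← RingHom.coe_range]
    exact Subring.closure_eq _
  rw [hcl] at hy hz
  obtain ⟨a, rfl⟩ := hy
  obtain ⟨b, rfl⟩ := hz
  by_cases hb : evT k t b = 0
  · refine ⟨0, 1, by rw [map_one]; exact one_ne_zero, ?_⟩
    rw [hb, div_zero] at hyz
    have hc : c = 0 := Subtype.ext hyz.symm
    rw [hc, map_zero, mul_zero]
  · refine ⟨a, b, fun h => hb (congrArg Subtype.val h), Subtype.ext ?_⟩
    show evT k t a = evT k t b * (c : F)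
    rw [← hyz, mul_div_cancel₀ _ hb]

/-- clearing denominators. -/
theorem a7_exists_clear (t : F) (h : (KT k t)[X]) :
    ∃ (d : k[X]) (G : k[X][X]), a7phi t d ≠ 0 ∧ G.map (a7phi t) = C (a7phi t d) * h := by
  induction h using Polynomial.induction_on' with
  | add h₁ h₂ ih₁ ih₂ =>
    obtain ⟨d₁, G₁, hd₁, hG₁⟩ := ih₁
    obtain ⟨d₂, G₂, hd₂, hG₂⟩ := ih₂
    refine ⟨d₁ * d₂, C d₂ * G₁ + C d₁ * G₂, by rw [map_mul]; exact mul_ne_zero hd₁ hd₂, ?_⟩
    rw [Polynomial.map_add, Polynomial.map_mul, Polynomial.map_mul, map_C, map_C, hG₁, hG₂, map_mul,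
      C_mul]
    ring
  | monomial n c =>
    obtain ⟨a, b, hb, hab⟩ := a7_exists_frac t c
    refine ⟨b, monomial n a, hb, ?_⟩
    rw [map_monomial, C_mul_monomial, hab]

/-- **CT-A7.** -/
theorem isSeparable_of_order [PerfectField k] (ι : F →ₐ[k] LaurentSeries k) (t : F)
    (ht : (ι t).order = -1) (halg : Algebra.IsAlgebraic (KT k t) F) :
    Algebra.IsSeparable (KT k t) F := by
  classical
  obtain ⟨p, hpk⟩ := CharP.exists k
  have hinjk : Function.Injective (algebraMap k F) := (algebraMap k F).injective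
  have hφk : Function.Injective ((a7phi t).comp (C : k →+* k[X])) := RingHom.injective _
  rcases CharP.char_is_prime_or_zero k p with hp | rfl
  swap
  · haveI : CharZero k := CharP.charP_to_charZero k
    haveI : CharZero (KT k t) := charZero_of_injective_ringHom hφk
    exact Algebra.IsAlgebraic.isSeparable_of_perfectField
  haveI : Fact p.Prime := ⟨hp⟩
  haveI : CharP (KT k t) p := charP_of_injective_ringHom hφk p
  haveI : CharP (LaurentSeries k) p :=
    charP_of_injective_ringHom (HahnSeries.C_injective : Function.Injective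
      (HahnSeries.C : k →+* LaurentSeries k)) p
  have hτneg : (ι t).order < 0 := by rw [ht]; norm_num
  have hφinj : Function.Injective (a7phi (k := k) t) := by
    rw [injective_iff_map_eq_zero]
    intro P hP
    by_contra hP0
    have h1 : aeval t P = 0 := congrArg Subtype.val hP
    have h2 : aeval (ι t) P = 0 := by rw [aeval_algHom_apply, h1, map_zero]
    exact (KLC.order_aeval hτneg P hP0).1 h2
  refine ⟨fun z => ?_⟩
  have hzint : IsIntegral (KT k t) z := (halg.isAlgebraic z).isIntegral
  rcases separable_or p (minpoly.irreducible hzint) with hs | ⟨-, g, hgirr, hg⟩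
  · exact hs
  exfalso
  have hg0 : g ≠ 0 := hgirr.ne_zero
  have hgz : aeval (z ^ p) g = 0 := by
    rw [← expand_aeval, hg, minpoly.aeval]
  obtain ⟨d, G, hd, hG⟩ := a7_exists_clear t g
  have hGdeg : G.natDegree = g.natDegree := by
    rw [← natDegree_map_eq_of_injective hφinj G, hG, natDegree_C_mul hd]
  have hG0 : G ≠ 0 := by
    rintro rfl
    rw [Polynomial.map_zero] at hG
    exact (mul_ne_zero (C_ne_zero.mpr hd) hg0) hG.symm
  set N := G.natDegree with hN
  -- the relation in `F`
  have hrelF : ∑ i ∈ Finset.range (N + 1), aeval t (G.coeff i) * z ^ (p * i) = 0 := by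
    have h1 : aeval (z ^ p) (G.map (a7phi t)) = 0 := by
      rw [hG, map_mul, hgz, mul_zero]
    rw [aeval_eq_sum_range' (n := N + 1)
      (lt_of_le_of_lt natDegree_map_le (Nat.lt_succ_self _))] at h1
    rw [← h1]
    refine Finset.sum_congr rfl fun i _ => ?_
    rw [coeff_map, Algebra.smul_def, pow_mul]
    rfl
  choose B hB using fun i => a7_exists_decomp p (G.coeff i)
  -- the relation in `k((q))`
  have hrel : ∑ r ∈ Finset.range p, ι t ^ r *
      (∑ i ∈ Finset.range (N + 1), aeval (ι t) (B i r) * ι z ^ i) ^ p = 0 := by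
    have h1 := congrArg ι hrelF
    rw [map_zero, map_sum] at h1
    rw [← h1]
    simp only [sum_pow_char, Finset.mul_sum]
    rw [Finset.sum_comm]
    refine Finset.sum_congr rfl fun i _ => ?_
    rw [map_mul, map_pow, ← aeval_algHom_apply]
    conv_rhs => rw [hB i]
    rw [map_sum, Finset.sum_mul]
    refine Finset.sum_congr rfl fun r _ => ?_
    rw [map_mul, map_pow, map_pow, aeval_X, mul_pow, ← pow_mul, mul_comm i p]
    ring
  have hzero := a7_eq_zero_of_sum p ht _ hrel
  -- a nonzero `B i₀ r₀`
  obtain ⟨i₀, hi₀⟩ : ∃ i, G.coeff i ≠ 0 := by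
    by_contra hcon
    push Not at hcon
    exact hG0 (Polynomial.ext fun i => by rw [hcon i, coeff_zero])
  have hi₀N : i₀ ∈ Finset.range (N + 1) :=
    Finset.mem_range.mpr (Nat.lt_succ_of_le (le_natDegree_of_ne_zero hi₀))
  obtain ⟨r₀, hr₀, hBr₀⟩ : ∃ r ∈ Finset.range p, B i₀ r ≠ 0 := by
    by_contra hcon
    push Not at hcon
    apply hi₀
    rw [hB i₀]
    refine Finset.sum_eq_zero fun r hr => ?_
    rw [hcon r hr, zero_pow hp.ne_zero, mul_zero]
  set H : (KT k t)[X] := ∑ i ∈ Finset.range (N + 1), monomial i (a7phi t (B i r₀)) with hH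
  have hHcoeff : H.coeff i₀ = a7phi t (B i₀ r₀) := by
    rw [hH, finset_sum_coeff, Finset.sum_eq_single i₀]
    · rw [coeff_monomial, if_pos rfl]
    · intro j _ hj
      rw [coeff_monomial, if_neg hj]
    · intro h
      exact absurd hi₀N h
  have hH0 : H ≠ 0 := by
    intro h
    rw [h, coeff_zero] at hHcoeff
    exact hBr₀ (hφinj (by rw [← hHcoeff, map_zero]))
  have hHz : aeval z H = 0 := by
    apply ι.injective
    rw [map_zero, ← hzero r₀ hr₀, hH, map_sum, map_sum]
    refine Finset.sum_congr rfl fun i _ => ?_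
    rw [aeval_monomial, map_mul, map_pow]
    congr 1
    exact (aeval_algHom_apply ι t (B i r₀)).symm
  have hHdeg : H.natDegree ≤ N := by
    rw [hH]
    refine natDegree_sum_le_of_forall_le _ _ fun i hi => ?_
    exact le_trans (natDegree_monomial_le _) (Nat.le_of_lt_succ (Finset.mem_range.mp hi))
  have hmin := natDegree_le_natDegree (minpoly.degree_le_of_ne_zero (KT k t) z hH0 hHz)
  rw [← hg, natDegree_expand, ← hGdeg] at hmin
  have hpos := minpoly.natDegree_pos hzint
  rw [← hg, natDegree_expand, ← hGdeg] at hpos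
  have hp2 := hp.two_le
  have hNpos : 0 < N := Nat.pos_of_mul_pos_right hpos |>.trans_le le_rfl
  nlinarith

end Fermat.Agent.GAL.CTV
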