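import Mathlib

/-!
# GAL / CTV, package W1 : every valuation subring of a subfield is the restriction of a valuation
subring of the big field.
-/

set_option autoImplicit false

namespace Fermat.Agent.GAL.CTV

theorem exists_valuationSubring_comap {L : Type*} [Field L] (E : Subfield L)
    (O : ValuationSubring E) : ∃ O' : ValuationSubring L, ∀ z : E, (z : L) ∈ O' ↔ z ∈ O := by
  obtain ⟨O', h, hloc⟩ := IsLocalRing.exists_factor_valuationRing (E.subtype.comp O.subtype)
  refine ⟨O', fun z => ⟨fun hz => ?_, fun hz => h ⟨z, hz⟩⟩⟩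
  by_contra hzO
  have hz0 : z ≠ 0 := fun h0 => hzO (h0 ▸ O.zero_mem)
  have hinv : z⁻¹ ∈ O := (O.mem_or_inv_mem z).resolve_left hzO
  -- the image of `z⁻¹` is a unit of `O'`
  have hu : IsUnit ((E.subtype.comp O.subtype).codRestrict O'.toSubring h ⟨z⁻¹, hinv⟩) := by
    refine IsUnit.of_mul_eq_one ⟨(z : L), hz⟩ ?_
    apply Subtype.ext
    show ((z⁻¹ : E) : L) * (z : L) = 1
    rw [← Subfield.coe_mul, inv_mul_cancel₀ hz0, Subfield.coe_one]
  have hu' : IsUnit (⟨z⁻¹, hinv⟩ : O) := hloc.map_nonunit _ hu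
  obtain ⟨w, hw⟩ := hu'.exists_right_inv
  have hw' : z⁻¹ * (w : E) = 1 := congrArg Subtype.val hw
  have : (w : E) = z := by
    field_simp at hw'
    exact hw'
  exact hzO (this ▸ w.2)

end Fermat.Agent.GAL.CTV

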