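import Fermat.Agent.GAL.CTV.WDefs
import Fermat.Agent.GAL.CTV.Alg
import Fermat.Agent.GAL.CTV.ValExt
import Fermat.Agent.GAL.CTV.Sep
import Fermat.Agent.GAL.CT.Sep

/-!
# GAL / CTV : CT-W2.  `ct_series` = `ct_alg` for a subfield `Fb` of `k((q))` carrying `t`-data.
-/

set_option autoImplicit false

open Polynomial

noncomputable section

namespace Fermat.Agent.GAL.CTV

variable {k : Type*} [Field k]

/-- every valuation subring of `Fb` containing `k` is induced by one of `k((q))` containing `k`. -/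
theorem w2_exists_ext (Fb : IntermediateField k (LaurentSeries k)) (O : ValuationSubring Fb)
    (hO : OverK k O) :
    ∃ O' : ValuationSubring (LaurentSeries k), OverK k O' ∧
      ∀ z : Fb, (z : LaurentSeries k) ∈ O' ↔ z ∈ O := by
  obtain ⟨O', hO'⟩ := exists_valuationSubring_comap Fb.toSubfield O
  exact ⟨O', fun c => (hO' (algebraMap k Fb c)).2 (hO c), hO'⟩

theorem w2_coe_aeval (Fb : IntermediateField k (LaurentSeries k)) (t : Fb) (W : k[X]) :
    ((aeval t W : Fb) : LaurentSeries k) = aeval (t : LaurentSeries k) W :=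
  (Polynomial.aeval_algHom_apply Fb.val t W).symm

theorem ct_series [PerfectField k] (Fb : IntermediateField k (LaurentSeries k))
    {f t : LaurentSeries k} (hT : IsTData Fb f t)
    (hfd : FiniteDimensional (KT k (⟨t, hT.t_mem⟩ : Fb)) Fb) (ξ : Fb)
    (hξ : ∀ O : ValuationSubring Fb, OverK k O → ξ ∉ O →
      ∀ z : Fb, 0 ≤ (z : LaurentSeries k).order → z ∈ O) :
    ((ξ : LaurentSeries k) * f).coeff 0 = 0 := by
  obtain ⟨W, y, η, n₁, n₂, hW, hy, hyf, hn₁, hη, hy1, hn₂, hy2⟩ := hT.ex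
  have ht' : (Fb.val (⟨t, hT.t_mem⟩ : Fb)).order = -1 := hT.order_t
  have hWt : aeval t W ≠ 0 :=
    CT.a7_aeval_ne_zero (AlgHom.id k (LaurentSeries k)) t hT.order_t hW.ne_zero
  have haW : aeval t W ∈ Fb := by
    rw [← w2_coe_aeval Fb ⟨t, hT.t_mem⟩ W]
    exact SetLike.coe_mem _
  have hηmem : η ∈ Fb := by
    have h1 : η = (y * aeval t W) ^ n₁ * (aeval t W)⁻¹ := by
      rw [hη, mul_comm (aeval t W) η, mul_assoc, mul_inv_cancel₀ hWt, mul_one]
    rw [h1]
    exact Fb.mul_mem (pow_mem (Fb.mul_mem hy haW) n₁) (Fb.inv_mem haW)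
  have halg : Algebra.IsAlgebraic (KT k (⟨t, hT.t_mem⟩ : Fb)) Fb := Algebra.IsAlgebraic.of_finite _ _
  have hsep := isSeparable_of_order Fb.val (⟨t, hT.t_mem⟩ : Fb) ht' halg
  have key := ct_alg Fb.val (⟨t, hT.t_mem⟩ : Fb) ht' hfd hsep W hW ξ ⟨y, hy⟩ ⟨η, hηmem⟩ hξ
    n₁ hn₁ (by
      apply Subtype.ext
      push_cast
      rw [w2_coe_aeval]
      exact hη)
    (by
      intro O hO htO
      obtain ⟨O', hO'k, hO'⟩ := w2_exists_ext Fb O hO
      exact (hO' ⟨η, hηmem⟩).1 (hy1 O' hO'k ((hO' ⟨t, hT.t_mem⟩).2 htO)))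
    n₂ hn₂ (by
      intro O hO htO
      obtain ⟨O', hO'k, hO'⟩ := w2_exists_ext Fb O hO
      refine (hO' _).1 ?_
      exact hy2 O' hO'k (fun h => htO ((hO' ⟨t, hT.t_mem⟩).1 h)))
    (CT.theta t) (by rw [(CT.theta_ne_zero_of_order t hT.order_t).2]) hT.res
  have h2 : (ξ : LaurentSeries k) * f = Fb.val ξ * Fb.val ⟨y, hy⟩ * CT.theta t := by
    rw [← hyf, mul_assoc]
    rfl
  rw [h2]
  exact key

end Fermat.Agent.GAL.CTV
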