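import Fermat.Agent.GAL.CTV.WDefs
import Fermat.Agent.GAL.CTV.IntVal
import Fermat.Agent.GAL.CT.Theta

/-!
# GAL / CTV / W6 : `t`-data on the `j`-line when `1728 ≠ 0` in `k`; `y_j = f/θj`.
-/

set_option autoImplicit false

open Polynomial ModularCurve AlgebraicCurve

noncomputable section

namespace Fermat.Agent.GAL.CTV

open Fermat.Agent.GAL.KL Fermat.Agent.GAL.KLC Fermat.Agent.GR

variable {k : Type*} [Field k]

theorem w6_ofNat_eq : (1728 : LaurentSeries k) = algebraMap k (LaurentSeries k) 1728 :=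
  (map_ofNat (algebraMap k (LaurentSeries k)) 1728).symm

theorem w6_ne_zero {j : LaurentSeries k} (hjo : j.order = -1) : j ≠ 0 := by
  intro h
  rw [h, HahnSeries.order_zero] at hjo
  omega

theorem w6_sub_ne_zero {j : LaurentSeries k} (hjo : j.order = -1) : j - 1728 ≠ 0 := by
  intro h
  have hj : j = 1728 := sub_eq_zero.mp h
  rw [hj, w6_ofNat_eq, LaurentSeries.algebraMap_apply, HahnSeries.order_C] at hjo
  omega

/-- `y_j = f/θj`. -/
theorem exists_yj (Fb : IntermediateField k (LaurentSeries k)) (j D E4 E6 f : LaurentSeries k)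
    (hj : j ∈ Fb) (hjo : j.order = -1) (hD : D ≠ 0) (hjD : j * D = E4 ^ 3)
    (h1728 : (j - 1728) * D = E6 ^ 2) (hθ : CT.theta j * D = -(E4 ^ 2 * E6))
    (hz0 : f * E4 * E6 * D⁻¹ ∈ Fb) :
    ∃ y ∈ Fb, y * CT.theta j = f ∧ y ^ 6 * (j ^ 4 * (j - 1728) ^ 3) = f ^ 6 * D⁻¹ := by
  have hj0 := w6_ne_zero hjo
  have hj1 := w6_sub_ne_zero hjo
  have h1728m : (1728 : LaurentSeries k) ∈ Fb := by
    rw [w6_ofNat_eq]; exact Fb.algebraMap_mem _
  set a : LaurentSeries k := j - 1728 with ha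
  have ham : a ∈ Fb := Fb.sub_mem hj h1728m
  have hθ' : CT.theta j = -(E4 ^ 2 * E6) * D⁻¹ := by
    rw [← hθ, mul_assoc, mul_inv_cancel₀ hD, mul_one]
  refine ⟨-(f * E4 * E6 * D⁻¹) * (j * a)⁻¹, ?_, ?_, ?_⟩
  · exact Fb.mul_mem (Fb.neg_mem hz0) (Fb.inv_mem (Fb.mul_mem hj ham))
  · rw [hθ']
    have h1 : -(f * E4 * E6 * D⁻¹) * (j * a)⁻¹ * (-(E4 ^ 2 * E6) * D⁻¹)
        = f * (E4 ^ 3) * (E6 ^ 2) * D⁻¹ * D⁻¹ * (j * a)⁻¹ := by ring
    rw [h1, ← hjD, ← h1728]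
    field_simp
  · have h1 : (-(f * E4 * E6 * D⁻¹) * (j * a)⁻¹) ^ 6 * (j ^ 4 * a ^ 3)
        = f ^ 6 * (E4 ^ 3) ^ 2 * (E6 ^ 2) ^ 3 * D⁻¹ ^ 6 * ((j * a)⁻¹) ^ 6 * (j ^ 4 * a ^ 3) := by ring
    rw [h1, ← hjD, ← h1728]
    field_simp

theorem w6_squarefree (h0 : (1728 : k) ≠ 0) : Squarefree (X * (X - C (1728 : k)) : k[X]) := by
  rw [squarefree_mul_iff]
  refine ⟨?_, Polynomial.irreducible_X.squarefree, (Polynomial.irreducible_X_sub_C _).squarefree⟩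
  apply IsCoprime.isRelPrime
  refine ⟨C (1728 : k)⁻¹, -C (1728 : k)⁻¹, ?_⟩
  have : C (1728 : k)⁻¹ * C (1728 : k) = 1 := by
    rw [← C_mul, inv_mul_cancel₀ h0, C_1]
  linear_combination this

theorem w6_aeval (j : LaurentSeries k) :
    aeval j (X * (X - C (1728 : k)) : k[X]) = j * (j - 1728) := by
  rw [map_mul, map_sub, aeval_X, aeval_C, ← w6_ofNat_eq]

theorem w6_unit (O : ValuationSubring (LaurentSeries k)) (hO : OverK k O) {j : LaurentSeries k}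
    (hjO : j ∉ O) : (1 - 1728 * j⁻¹)⁻¹ ∈ O := by
  have h1 : 1 < O.valuation j := by
    rw [← not_le, ValuationSubring.valuation_le_one_iff]; exact hjO
  have hj0 : j ≠ 0 := fun h => hjO (h ▸ O.zero_mem)
  have h2 : O.valuation j⁻¹ < 1 := by
    rw [map_inv₀]
    exact inv_lt_one_of_one_lt₀ h1
  have h3 : O.valuation (1728 : LaurentSeries k) ≤ 1 := by
    rw [ValuationSubring.valuation_le_one_iff, w6_ofNat_eq]; exact hO _
  have h4 : O.valuation (1728 * j⁻¹) < 1 := by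
    rw [map_mul]
    exact mul_lt_one_of_nonneg_of_lt_one_right h3 zero_le h2
  have h5 : O.valuation (1 - 1728 * j⁻¹) = 1 := Valuation.map_one_sub_of_lt _ h4
  rw [← ValuationSubring.valuation_le_one_iff, map_inv₀, h5, inv_one]

theorem isTData_j (Fb : IntermediateField k (LaurentSeries k)) (h0 : (1728 : k) ≠ 0)
    (j g f y : LaurentSeries k) (hj : j ∈ Fb) (hjo : j.order = -1)
    (hres : ∀ m : ℕ, (j ^ m * CT.theta j).coeff 0 = 0)
    (hy : y ∈ Fb) (hyf : y * CT.theta j = f) (hy6 : y ^ 6 * (j ^ 4 * (j - 1728) ^ 3) = g)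
    (hG1 : IsInt k j g) (N : ℕ) (hN : 0 < N) (hG2 : IsInt k j⁻¹ (g ^ N * j⁻¹ ^ (N - 1))) :
    IsTData Fb f j := by
  have hj0 := w6_ne_zero hjo
  have hj1 := w6_sub_ne_zero hjo
  refine ⟨hj, hjo, hres, X * (X - C (1728 : k)), y, g * j * (j - 1728) ^ 2, 6, 6 * N,
    w6_squarefree h0, hy, hyf, by norm_num, ?_, ?_, by positivity, ?_⟩
  · rw [w6_aeval, ← hy6]; ring
  · intro O hO hjO
    have hg : g ∈ O := (isInt_iff_forall_valuationSubring j g).mp hG1 O hO hjO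
    have h1728 : (1728 : LaurentSeries k) ∈ O := by rw [w6_ofNat_eq]; exact hO _
    exact O.mul_mem _ _ (O.mul_mem _ _ hg hjO) (O.pow_mem (O.sub_mem hjO h1728) 2)
  · intro O hO hjO
    have hji : j⁻¹ ∈ O := (O.mem_or_inv_mem j).resolve_left hjO
    have h1 : g ^ N * j⁻¹ ^ (N - 1) ∈ O :=
      (isInt_iff_forall_valuationSubring j⁻¹ _).mp hG2 O hO hji
    have h2 := w6_unit O hO hjO
    have hu : (1 - 1728 * j⁻¹) ≠ 0 := by
      have : 1 - 1728 * j⁻¹ = (j - 1728) * j⁻¹ := by field_simp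
      rw [this]; exact mul_ne_zero hj1 (inv_ne_zero hj0)
    have key : y ^ (6 * N) * j ^ (6 * N + 1)
        = (g ^ N * j⁻¹ ^ (N - 1)) * ((1 - 1728 * j⁻¹)⁻¹) ^ (3 * N) := by
      obtain ⟨M, rfl⟩ : ∃ M, N = M + 1 := ⟨N - 1, by omega⟩
      have e1 : 1 - 1728 * j⁻¹ = (j - 1728) * j⁻¹ := by field_simp
      rw [e1, ← hy6, Nat.add_sub_cancel]
      set a : LaurentSeries k := j - 1728 with ha
      rw [mul_inv, inv_inv, mul_pow, mul_pow, mul_pow, ← pow_mul, ← pow_mul, ← pow_mul]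
      have e2 : a ^ (3 * (M + 1)) * a⁻¹ ^ (3 * (M + 1)) = 1 := by
        rw [← mul_pow, mul_inv_cancel₀ hj1, one_pow]
      have e3 : j ^ (6 * (M + 1) + 1) = j ^ (4 * (M + 1)) * j⁻¹ ^ M * j ^ (3 * (M + 1)) := by
        have : j ^ (4 * (M + 1)) * j⁻¹ ^ M * j ^ (3 * (M + 1))
            = j ^ (6 * (M + 1) + 1) * (j ^ M * j⁻¹ ^ M) := by ring
        rw [this, ← mul_pow, mul_inv_cancel₀ hj0, one_pow, mul_one]
      rw [e3]
      linear_combination (-(y ^ (6 * (M + 1)) * (j ^ (4 * (M + 1)) * j⁻¹ ^ M * j ^ (3 * (M + 1))))) * e2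
    rw [key]
    exact O.mul_mem _ _ h1 (O.pow_mem h2 _)

end Fermat.Agent.GAL.CTV
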